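import Mathlib

/-!
# S25 / block HILB, leaves H0b and H0c (helper551)

* `invertible_of_locally_free_rank_one` (H0c): a finitely presented module which is free of rank
  one at every maximal ideal is invertible.
* `invertible_of_rankAtStalk_eq_one` (H0b): a finitely generated projective module of constant
  rank one is invertible.

Method: bijectivity of `contractLeft R M` is checked at every maximal ideal; the localization of
`Dual R M ⊗[R] M` at `S` is `Dual Rₛ Mₛ ⊗[Rₛ] Mₛ` because `M` is finitely presented.
-/

set_option autoImplicit false

open TensorProduct

universe u

namespace Fermat.Agent.S25.H551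

section Loc

variable {R : Type u} [CommRing R] (S : Submonoid R) (M : Type u) [AddCommGroup M] [Module R M]

/-- The comparison map `Dual R M → Dual Rₛ Mₛ`. -/
noncomputable def locDual :
    Module.Dual R M →ₗ[R] Module.Dual (Localization S) (LocalizedModule S M) :=
  IsLocalizedModule.mapExtendScalars S (LocalizedModule.mkLinearMap S M)
    (Algebra.linearMap R (Localization S)) (Localization S)

theorem locDual_apply (f : Module.Dual R M) (m : M) :
    locDual S M f (LocalizedModule.mkLinearMap S M m) = algebraMap R (Localization S) (f m) := by
  rw [locDual, IsLocalizedModule.mapExtendScalars_apply_apply, IsLocalizedModule.map_apply]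
  rfl

instance locDual_isLocalizedModule [Module.FinitePresentation R M] :
    IsLocalizedModule S (locDual S M) :=
  Module.FinitePresentation.isLocalizedModule_mapExtendScalars S _ _ _

/-- The comparison map `Dual R M ⊗[R] M → Dual Rₛ Mₛ ⊗[Rₛ] Mₛ`. -/
noncomputable def locContract :
    Module.Dual R M ⊗[R] M →ₗ[R]
      Module.Dual (Localization S) (LocalizedModule S M) ⊗[Localization S] LocalizedModule S M :=
  ((IsLocalization.moduleTensorEquiv S (Localization S)
      (Module.Dual (Localization S) (LocalizedModule S M))
      (LocalizedModule S M)).symm.restrictScalars R).toLinearMap ∘ₗ
    TensorProduct.map (locDual S M) (LocalizedModule.mkLinearMap S M)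

instance locContract_isLocalizedModule [Module.FinitePresentation R M] :
    IsLocalizedModule S (locContract S M) :=
  IsLocalizedModule.of_linearEquiv S _ _

theorem locContract_tmul (f : Module.Dual R M) (m : M) :
    locContract S M (f ⊗ₜ[R] m) =
      (locDual S M f) ⊗ₜ[Localization S] (LocalizedModule.mkLinearMap S M m) := by
  rfl

theorem contract_comp_locContract :
    ((contractLeft (Localization S) (LocalizedModule S M)).restrictScalars R) ∘ₗ locContract S M =
      (Algebra.linearMap R (Localization S)) ∘ₗ contractLeft R M := by
  refine TensorProduct.ext' fun f m => ?_
  simp only [LinearMap.comp_apply, LinearMap.restrictScalars_apply, locContract_tmul,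
    contractLeft_apply, locDual_apply, Algebra.linearMap_apply]

theorem map_contractLeft [Module.FinitePresentation R M] :
    IsLocalizedModule.map S (locContract S M) (Algebra.linearMap R (Localization S))
        (contractLeft R M) =
      (contractLeft (Localization S) (LocalizedModule S M)).restrictScalars R := by
  refine IsLocalizedModule.linearMap_ext S (locContract S M)
    (Algebra.linearMap R (Localization S)) ?_
  rw [IsLocalizedModule.map_comp, contract_comp_locContract]

end Loc

/-- **H0c.** A finitely presented module which is free of rank one at every maximal ideal is
invertible. -/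
theorem invertible_of_locally_free_rank_one {R : Type u} [CommRing R] (M : Type u)
    [AddCommGroup M] [Module R M] [Module.FinitePresentation R M]
    (h : ∀ (m : Ideal R) [m.IsMaximal],
      Nonempty (LocalizedModule m.primeCompl M ≃ₗ[Localization.AtPrime m] Localization.AtPrime m)) :
    Module.Invertible R M := by
  refine ⟨bijective_of_isLocalized_maximal
    (fun P _ => Module.Dual (Localization.AtPrime P) (LocalizedModule P.primeCompl M)
      ⊗[Localization.AtPrime P] LocalizedModule P.primeCompl M)
    (fun P _ => locContract P.primeCompl M)
    (fun P _ => Localization.AtPrime P)
    (fun P _ => Algebra.linearMap R (Localization.AtPrime P))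
    (contractLeft R M) ?_⟩
  intro P _
  rw [map_contractLeft]
  obtain ⟨e⟩ := h P
  have : Module.Invertible (Localization.AtPrime P) (LocalizedModule P.primeCompl M) :=
    Module.Invertible.congr e.symm
  exact Module.Invertible.bijective

/-- **H0b.** A finitely generated projective module of constant rank `1` is invertible. -/
theorem invertible_of_rankAtStalk_eq_one {R : Type u} [CommRing R] (M : Type u) [AddCommGroup M]
    [Module R M] [Module.Finite R M] [Module.Projective R M]
    (h : ∀ p : PrimeSpectrum R, Module.rankAtStalk (R := R) M p = 1) : Module.Invertible R M := by
  have : Module.FinitePresentation R M := Module.finitePresentation_of_projective R M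
  refine invertible_of_locally_free_rank_one M fun m _ => ?_
  have : Module.Free (Localization.AtPrime m) (LocalizedModule m.primeCompl M) :=
    Module.free_of_flat_of_isLocalRing
  have h1 : Module.finrank (Localization.AtPrime m) (LocalizedModule m.primeCompl M) = 1 :=
    h ⟨m, inferInstance⟩
  have h2 : Module.finrank (Localization.AtPrime m) (Localization.AtPrime m) = 1 :=
    Module.finrank_self _
  exact FiniteDimensional.nonempty_linearEquiv_of_finrank_eq (h1.trans h2.symm)

end Fermat.Agent.S25.H551
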