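import Mathlib
import Fermat.Agent.S25.H971.Lift

/-!
# S25 / block ALGDEF, core lemmas (helper551)

`R → S` surjective with nil kernel.

* `exists_invertible_isBaseChange` : an invertible `S`-module `Q` is a base change of an
  invertible `R`-module `P` (in `IsBaseChange` form).
* `exists_linearEquiv_of_isBaseChange` : two finite projective `R`-modules with the same base
  change are isomorphic, compatibly with the base change maps.
-/

set_option autoImplicit false

open TensorProduct

universe u

namespace Fermat.Agent.S25.H551

section Core

variable {R S : Type u} [CommRing R] [CommRing S] [Algebra R S]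

/-- Invertible modules lift along a surjection with nil kernel, `IsBaseChange` form. -/
theorem exists_invertible_isBaseChange (hsurj : Function.Surjective (algebraMap R S))
    (hnil : ∀ x ∈ RingHom.ker (algebraMap R S), IsNilpotent x)
    (Q : Type u) [AddCommGroup Q] [Module S Q] [Module R Q] [IsScalarTower R S Q]
    [Module.Invertible S Q] :
    ∃ (P : Type u) (_ : AddCommGroup P) (_ : Module R P) (_ : Module.Invertible R P)
      (f : P →ₗ[R] Q), IsBaseChange S f := by
  obtain ⟨P, hP1, hP2, hP3, ⟨φ⟩⟩ := H971.exists_invertible_lift hsurj hnil Q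
  refine ⟨P, hP1, hP2, hP3,
    (φ.restrictScalars R).toLinearMap ∘ₗ TensorProduct.mk R S P 1, ?_⟩
  exact IsBaseChange.of_equiv φ (fun x => rfl)

/-- Finite projective modules with the same base change along a surjection with nil kernel
are isomorphic, compatibly with the base change maps. -/
theorem exists_linearEquiv_of_isBaseChange (hsurj : Function.Surjective (algebraMap R S))
    (hnil : ∀ x ∈ RingHom.ker (algebraMap R S), IsNilpotent x)
    {P P' N : Type u} [AddCommGroup P] [Module R P] [AddCommGroup P'] [Module R P']
    [Module.Finite R P] [Module.Projective R P] [Module.Finite R P'] [Module.Projective R P']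
    [AddCommGroup N] [Module S N] [Module R N] [IsScalarTower R S N]
    {f : P →ₗ[R] N} {f' : P' →ₗ[R] N} (hf : IsBaseChange S f) (hf' : IsBaseChange S f') :
    ∃ ψ : P ≃ₗ[R] P', ∀ x, f' (ψ x) = f x := by
  obtain ⟨ψ, hψ⟩ := H971.exists_linearEquiv_lift hsurj hnil (hf.equiv ≪≫ₗ hf'.equiv.symm)
  refine ⟨ψ, fun x => ?_⟩
  have h := hψ x
  rw [LinearEquiv.trans_apply, LinearEquiv.symm_apply_eq, IsBaseChange.equiv_tmul,
    IsBaseChange.equiv_tmul, one_smul, one_smul] at h
  exact h.symm

end Core

end Fermat.Agent.S25.H551
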