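import Mathlib
import Fermat.Agent.S25.DefsAlg
import Fermat.Agent.S25.H551.AlgDefCore

/-!
# S25 / block ALGDEF, semilinear layer (helper551)

The lemmas of `AlgDefCore` in the `IsSemilinearBaseChange` language of `DefsAlg`, plus the
"side" lemma: base change of a base change along a commutative square of rings.
-/

set_option autoImplicit false
set_option linter.style.haveILetI false

open TensorProduct

universe u

namespace Fermat.Agent.S25.H551

open Fermat.Agent.S25

section Semi

variable {R R' : Type u} [CommRing R] [CommRing R'] (ρ : R →+* R')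

/-- Invertible modules lift along a surjection with nil kernel (semilinear form). -/
theorem exists_invertible_semilinear (hs : Function.Surjective ρ)
    (hn : ∀ x ∈ RingHom.ker ρ, IsNilpotent x)
    (Q : Type u) [AddCommGroup Q] [Module R' Q] [Module.Invertible R' Q] :
    ∃ (P : Type u) (_ : AddCommGroup P) (_ : Module R P) (_ : Module.Invertible R P)
      (b : P →ₛₗ[ρ] Q), IsSemilinearBaseChange ρ b := by
  letI : Algebra R R' := ρ.toAlgebra
  letI : Module R Q := Module.compHom Q ρ
  haveI : IsScalarTower R R' Q := ⟨fun r r' n => by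
    change (ρ r * r') • n = ρ r • (r' • n); rw [mul_smul]⟩
  obtain ⟨P, hP1, hP2, hP3, f, hf⟩ :=
    exists_invertible_isBaseChange (R := R) (S := R') hs hn Q
  refine ⟨P, hP1, hP2, hP3,
    { toFun := fun p => f p
      map_add' := fun x y => f.map_add x y
      map_smul' := fun r x => f.map_smul r x }, ?_⟩
  exact hf

/-- Two finite projective modules with the same (semilinear) base change along a surjection
with nil kernel are isomorphic, compatibly with the base change maps. -/
theorem exists_linearEquiv_of_semilinear (hs : Function.Surjective ρ)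
    (hn : ∀ x ∈ RingHom.ker ρ, IsNilpotent x)
    {P P' N : Type u} [AddCommGroup P] [Module R P] [AddCommGroup P'] [Module R P']
    [Module.Finite R P] [Module.Projective R P] [Module.Finite R P'] [Module.Projective R P']
    [AddCommGroup N] [Module R' N]
    {f : P →ₛₗ[ρ] N} {f' : P' →ₛₗ[ρ] N} (hf : IsSemilinearBaseChange ρ f)
    (hf' : IsSemilinearBaseChange ρ f') :
    ∃ ψ : P ≃ₗ[R] P', ∀ x, f' (ψ x) = f x := by
  letI : Algebra R R' := ρ.toAlgebra
  letI : Module R N := Module.compHom N ρ
  haveI : IsScalarTower R R' N := ⟨fun r r' n => by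
    change (ρ r * r') • n = ρ r • (r' • n); rw [mul_smul]⟩
  exact exists_linearEquiv_of_isBaseChange (R := R) (S := R') hs hn hf hf'

end Semi

section Side

variable {R T R' T' : Type u} [CommRing R] [CommRing T] [CommRing R'] [CommRing T']
  [Algebra R T] [Algebra R' T'] (ρ : R →+* R') (τ : T →+* T')

/-- Base change of a base change along a commutative square of rings: if `b : P → N'` is a
`ρ`-semilinear base change and `r' : N' → M'` is a base change along `R' → T'`, then
`T ⊗[R] P → M'`, `t ⊗ p ↦ τ t • r' (b p)`, is a `τ`-semilinear base change. -/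
theorem exists_side (h : ∀ r, τ (algebraMap R T r) = algebraMap R' T' (ρ r))
    {P N' M' : Type u} [AddCommGroup P] [Module R P] [AddCommGroup N'] [Module R' N']
    [AddCommGroup M'] [Module T' M'] [Module R' M'] [IsScalarTower R' T' M']
    (b : P →ₛₗ[ρ] N') (hb : IsSemilinearBaseChange ρ b)
    (r' : N' →ₗ[R'] M') (hr' : IsBaseChange T' r') :
    ∃ c : (T ⊗[R] P) →ₛₗ[τ] M', IsSemilinearBaseChange τ c ∧
      ∀ p : P, c ((1 : T) ⊗ₜ[R] p) = r' (b p) := by
  letI algRR' : Algebra R R' := ρ.toAlgebra
  letI algTT' : Algebra T T' := τ.toAlgebra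
  letI algRT' : Algebra R T' := (τ.comp (algebraMap R T)).toAlgebra
  haveI towRTT' : IsScalarTower R T T' := IsScalarTower.of_algebraMap_eq (fun r => rfl)
  haveI towRR'T' : IsScalarTower R R' T' := IsScalarTower.of_algebraMap_eq (fun r => h r)
  letI modRN' : Module R N' := Module.compHom N' ρ
  haveI towRR'N' : IsScalarTower R R' N' := ⟨fun r r' n => by
    change (ρ r * r') • n = ρ r • (r' • n); rw [mul_smul]⟩
  letI modTM' : Module T M' := Module.compHom M' τ
  haveI towTT'M' : IsScalarTower T T' M' := ⟨fun r r' n => by
    change (τ r * r') • n = τ r • (r' • n); rw [mul_smul]⟩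
  letI modRM' : Module R M' := Module.compHom M' (τ.comp (algebraMap R T))
  haveI towRT'M' : IsScalarTower R T' M' := ⟨fun r r' n => by
    change (τ (algebraMap R T r) * r') • n = τ (algebraMap R T r) • (r' • n); rw [mul_smul]⟩
  haveI towRTM' : IsScalarTower R T M' := ⟨fun r t n => by
    rw [Algebra.smul_def]
    change τ (algebraMap R T r * t) • n = τ (algebraMap R T r) • (τ t • n)
    rw [map_mul, mul_smul]⟩
  haveI towRR'M' : IsScalarTower R R' M' := ⟨fun r s n => by
    change (ρ r * s) • n = τ (algebraMap R T r) • (s • n)
    rw [h, algebraMap_smul, mul_smul]⟩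
  -- the composite base change `P → N' → M'`
  have hcomp : IsBaseChange T' ((r'.restrictScalars R) ∘ₗ
      (show P →ₗ[R] N' from
        { toFun := fun n => b n
          map_add' := fun m n => b.map_add m n
          map_smul' := fun r n => LinearMap.map_smulₛₗ b r n })) :=
    IsBaseChange.comp hb hr'
  set g : P →ₗ[R] M' := (r'.restrictScalars R) ∘ₗ
      (show P →ₗ[R] N' from
        { toFun := fun n => b n
          map_add' := fun m n => b.map_add m n
          map_smul' := fun r n => LinearMap.map_smulₛₗ b r n }) with hg
  have hmk : IsBaseChange T (TensorProduct.mk R T P 1) := TensorProduct.isBaseChange R P T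
  set c : (T ⊗[R] P) →ₗ[T] M' := hmk.lift g with hc
  have hcmk : (c.restrictScalars R) ∘ₗ (TensorProduct.mk R T P 1) = g := by
    ext p
    exact hmk.lift_eq g p
  have hcbc : IsBaseChange T' c := IsBaseChange.of_comp hmk (hcmk ▸ hcomp)
  refine ⟨{ toFun := fun z => c z
            map_add' := fun x y => c.map_add x y
            map_smul' := fun t x => c.map_smul t x }, hcbc, fun p => ?_⟩
  exact hmk.lift_eq g p

end Side

end Fermat.Agent.S25.H551
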