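import Mathlib
import Fermat.Agent.S25.DefsAlg
import Fermat.Agent.S25.H551.AlgDefSemi

/-!
# S25 / GDC: rigidifiability lifts along nilpotent thickenings (helper551)

Semilinear base change calculus (`comp`, `of_comp`, existence, post-composition with an
equivalence) and the theorem `rigidifiable_of_isBC`:
if `G₀` over `A ⧸ I` (`I` nilpotent) is a base change of `G` over `A` and `G₀` is rigidifiable,
then `G` is rigidifiable.
-/

set_option autoImplicit false
set_option linter.style.haveILetI false

open TensorProduct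

universe u

namespace Fermat.Agent.S25.H551

open Fermat.Agent.S25

section Calculus

variable {R R' R'' : Type u} [CommRing R] [CommRing R'] [CommRing R'']

/-- Composition of semilinear base changes. -/
theorem isSemilinearBaseChange_comp (ρ : R →+* R') (σ : R' →+* R'') (τ : R →+* R'')
    (hτ : ∀ r, τ r = σ (ρ r))
    {N N' N'' : Type u} [AddCommGroup N] [Module R N] [AddCommGroup N'] [Module R' N']
    [AddCommGroup N''] [Module R'' N'']
    (b : N →ₛₗ[ρ] N') (hb : IsSemilinearBaseChange ρ b)
    (b' : N' →ₛₗ[σ] N'') (hb' : IsSemilinearBaseChange σ b')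
    (c : N →ₛₗ[τ] N'') (hc : ∀ n, c n = b' (b n)) : IsSemilinearBaseChange τ c := by
  unfold IsSemilinearBaseChange at hb hb' ⊢
  letI : Algebra R R' := ρ.toAlgebra
  letI : Algebra R' R'' := σ.toAlgebra
  letI : Algebra R R'' := τ.toAlgebra
  haveI : IsScalarTower R R' R'' := IsScalarTower.of_algebraMap_eq (fun r => hτ r)
  letI : Module R N' := Module.compHom N' ρ
  haveI : IsScalarTower R R' N' := ⟨fun r r' n => by
    change (ρ r * r') • n = ρ r • (r' • n); rw [mul_smul]⟩
  letI : Module R' N'' := Module.compHom N'' σ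
  haveI : IsScalarTower R' R'' N'' := ⟨fun r r' n => by
    change (σ r * r') • n = σ r • (r' • n); rw [mul_smul]⟩
  letI : Module R N'' := Module.compHom N'' τ
  haveI : IsScalarTower R R'' N'' := ⟨fun r r' n => by
    change (τ r * r') • n = τ r • (r' • n); rw [mul_smul]⟩
  haveI : IsScalarTower R R' N'' := ⟨fun r r' n => by
    change σ (ρ r * r') • n = τ r • (σ r' • n)
    rw [map_mul, mul_smul, hτ]⟩
  have h := IsBaseChange.comp hb hb'
  convert h using 1
  ext n
  exact hc n

/-- Cancellation: if `b` and `b' ∘ b` are semilinear base changes, so is `b'`. -/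
theorem isSemilinearBaseChange_of_comp (ρ : R →+* R') (σ : R' →+* R'') (τ : R →+* R'')
    (hτ : ∀ r, τ r = σ (ρ r))
    {N N' N'' : Type u} [AddCommGroup N] [Module R N] [AddCommGroup N'] [Module R' N']
    [AddCommGroup N''] [Module R'' N'']
    (b : N →ₛₗ[ρ] N') (hb : IsSemilinearBaseChange ρ b)
    (b' : N' →ₛₗ[σ] N'')
    (c : N →ₛₗ[τ] N'') (hc : ∀ n, c n = b' (b n)) (hcb : IsSemilinearBaseChange τ c) :
    IsSemilinearBaseChange σ b' := by
  unfold IsSemilinearBaseChange at hb hcb ⊢
  letI : Algebra R R' := ρ.toAlgebra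
  letI : Algebra R' R'' := σ.toAlgebra
  letI : Algebra R R'' := τ.toAlgebra
  haveI : IsScalarTower R R' R'' := IsScalarTower.of_algebraMap_eq (fun r => hτ r)
  letI : Module R N' := Module.compHom N' ρ
  haveI : IsScalarTower R R' N' := ⟨fun r r' n => by
    change (ρ r * r') • n = ρ r • (r' • n); rw [mul_smul]⟩
  letI : Module R' N'' := Module.compHom N'' σ
  haveI : IsScalarTower R' R'' N'' := ⟨fun r r' n => by
    change (σ r * r') • n = σ r • (r' • n); rw [mul_smul]⟩
  letI : Module R N'' := Module.compHom N'' τ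
  haveI : IsScalarTower R R'' N'' := ⟨fun r r' n => by
    change (τ r * r') • n = τ r • (r' • n); rw [mul_smul]⟩
  haveI : IsScalarTower R R' N'' := ⟨fun r r' n => by
    change σ (ρ r * r') • n = τ r • (σ r' • n)
    rw [map_mul, mul_smul, hτ]⟩
  refine IsBaseChange.of_comp hb ?_
  convert hcb using 1
  ext n
  exact (hc n).symm

/-- Recognising a semilinear base change from an equivalence with the tensor product. -/
theorem isSemilinearBaseChange_of_equiv (ρ : R →+* R') {N Q : Type u} [AddCommGroup N]
    [Module R N] [AddCommGroup Q] [Module R' Q] (f : N →ₛₗ[ρ] Q) :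
    letI : Algebra R R' := ρ.toAlgebra
    ∀ (e : R' ⊗[R] N ≃ₗ[R'] Q), (∀ x, e ((1 : R') ⊗ₜ[R] x) = f x) →
      IsSemilinearBaseChange ρ f := by
  intro e he
  unfold IsSemilinearBaseChange
  letI : Algebra R R' := ρ.toAlgebra
  letI : Module R Q := Module.compHom Q ρ
  haveI : IsScalarTower R R' Q := ⟨fun r r' n => by
    change (ρ r * r') • n = ρ r • (r' • n); rw [mul_smul]⟩
  exact IsBaseChange.of_equiv e he

/-- Existence of a semilinear base change along any ring homomorphism. -/
theorem exists_isSemilinearBaseChange (ρ : R →+* R') (N : Type u) [AddCommGroup N]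
    [Module R N] :
    ∃ (Q : Type u) (_ : AddCommGroup Q) (_ : Module R' Q) (m : N →ₛₗ[ρ] Q),
      IsSemilinearBaseChange ρ m ∧ (Module.Invertible R N → Module.Invertible R' Q) := by
  letI : Algebra R R' := ρ.toAlgebra
  refine ⟨R' ⊗[R] N, inferInstance, inferInstance,
    { toFun := fun n => (1 : R') ⊗ₜ[R] n
      map_add' := fun x y => TensorProduct.tmul_add _ _ _
      map_smul' := fun r x => by
        rw [← TensorProduct.smul_tmul, TensorProduct.smul_tmul', Algebra.smul_def, smul_eq_mul]
        rfl }, ?_, fun h => inferInstance⟩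
  exact isSemilinearBaseChange_of_equiv ρ _ (LinearEquiv.refl R' (R' ⊗[R] N)) (fun x => rfl)

/-- Post-composition of a semilinear base change with a linear equivalence. -/
theorem isSemilinearBaseChange_equiv_comp' (ρ : R →+* R') {N N' N'' : Type u}
    [AddCommGroup N] [Module R N] [AddCommGroup N']
    [Module R' N'] [AddCommGroup N''] [Module R' N''] (b : N →ₛₗ[ρ] N')
    (hb : IsSemilinearBaseChange ρ b) (e : N' ≃ₗ[R'] N'') :
    IsSemilinearBaseChange ρ ((e : N' →ₗ[R'] N'').comp b) := by
  unfold IsSemilinearBaseChange at hb ⊢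
  letI : Algebra R R' := ρ.toAlgebra
  letI : Module R N' := Module.compHom N' ρ
  letI : Module R N'' := Module.compHom N'' ρ
  haveI : IsScalarTower R R' N' := ⟨fun r r' n => by
    change (ρ r * r') • n = ρ r • (r' • n); rw [mul_smul]⟩
  haveI : IsScalarTower R R' N'' := ⟨fun r r' n => by
    change (ρ r * r') • n = ρ r • (r' • n); rw [mul_smul]⟩
  exact IsBaseChange.comp hb (IsBaseChange.ofEquiv e)

/-- The ring homomorphism itself, as a semilinear base change `R → R'`. -/
theorem isSemilinearBaseChange_ringHom (ρ : R →+* R') :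
    IsSemilinearBaseChange ρ
      ({ toFun := fun r => ρ r
         map_add' := fun x y => map_add ρ x y
         map_smul' := fun r x => by
          rw [smul_eq_mul, map_mul, smul_eq_mul] } : R →ₛₗ[ρ] R') := by
  unfold IsSemilinearBaseChange
  letI : Algebra R R' := ρ.toAlgebra
  exact IsBaseChange.linearMap R R'

/-- Universal property: a semilinear base change `c` along `σ ∘ ρ` factors through a
semilinear base change `m` along `ρ`, and the factor is a semilinear base change along `σ`. -/
theorem exists_factor (ρ : R →+* R') (σ : R' →+* R'') (τ : R →+* R'')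
    (hτ : ∀ r, τ r = σ (ρ r))
    {N N' N'' : Type u} [AddCommGroup N] [Module R N] [AddCommGroup N'] [Module R' N']
    [AddCommGroup N''] [Module R'' N'']
    (m : N →ₛₗ[ρ] N') (hm : IsSemilinearBaseChange ρ m)
    (c : N →ₛₗ[τ] N'') (hc : IsSemilinearBaseChange τ c) :
    ∃ b' : N' →ₛₗ[σ] N'', IsSemilinearBaseChange σ b' ∧ ∀ n, b' (m n) = c n := by
  have hm' := hm
  unfold IsSemilinearBaseChange at hm'
  letI : Algebra R R' := ρ.toAlgebra
  letI : Module R N' := Module.compHom N' ρ
  haveI : IsScalarTower R R' N' := ⟨fun r r' n => by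
    change (ρ r * r') • n = ρ r • (r' • n); rw [mul_smul]⟩
  letI : Module R' N'' := Module.compHom N'' σ
  letI : Module R N'' := Module.compHom N'' τ
  haveI : IsScalarTower R R' N'' := ⟨fun r r' n => by
    change σ (ρ r * r') • n = τ r • (σ r' • n)
    rw [map_mul, mul_smul, hτ]⟩
  let clin : N →ₗ[R] N'' :=
    { toFun := fun n => c n
      map_add' := fun x y => c.map_add x y
      map_smul' := fun r n => LinearMap.map_smulₛₗ c r n }
  let b'lin : N' →ₗ[R'] N'' := hm'.lift clin
  have hb'm : ∀ n, b'lin (m n) = c n := fun n => hm'.lift_eq clin n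
  let b' : N' →ₛₗ[σ] N'' :=
    { toFun := fun n => b'lin n
      map_add' := fun x y => b'lin.map_add x y
      map_smul' := fun r n => b'lin.map_smul r n }
  refine ⟨b', ?_, hb'm⟩
  exact isSemilinearBaseChange_of_comp ρ σ τ hτ m hm b' c (fun n => (hb'm n).symm) hc

end Calculus

end Fermat.Agent.S25.H551
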