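import Mathlib
import Fermat.Agent.S25.DefsAlg
import Fermat.Agent.S25.H551.RigLiftCore

/-!
# S25 / GDC: rigidifiability lifts along nilpotent thickenings (helper551)

`rigidifiable_of_isBC`: if `G₀` over `A ⧸ I` (`I` nilpotent) is a base change of `G` over `A`
and `G₀` is rigidifiable, then `G` is rigidifiable.
-/

set_option autoImplicit false
set_option linter.style.haveILetI false

open TensorProduct

universe u

namespace Fermat.Agent.S25.H551

open Fermat.Agent.S25

section Rig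

variable {k : Type u} [Field k] {B₀ B₁ B₀₁ : Type u} [CommRing B₀] [CommRing B₁]
  [CommRing B₀₁] [Algebra k B₀] [Algebra k B₁] [Algebra k B₀₁] [Algebra B₀ B₀₁]
  [Algebra B₁ B₀₁] [IsScalarTower k B₀ B₀₁] [IsScalarTower k B₁ B₀₁]

theorem epsHom_tmul (e : B₁ →ₐ[k] k) (A : Type u) [CommRing A] [Algebra k A] (a : A) (b : B₁) :
    epsHom e A (a ⊗ₜ[k] b) = a * algebraMap k A (e b) := by
  simp [epsHom, Algebra.ofId_apply]

/-- The marked section commutes with base change. -/
theorem epsHom_tensorMapLeft (e : B₁ →ₐ[k] k) {A A' : Type u} [CommRing A] [Algebra k A]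
    [CommRing A'] [Algebra k A'] (φ : A →ₐ[k] A') (r : A ⊗[k] B₁) :
    φ (epsHom e A r) = epsHom e A' (tensorMapLeft k φ B₁ r) := by
  induction r using TensorProduct.induction_on with
  | zero => simp
  | tmul a b =>
    change φ (epsHom e A (a ⊗ₜ[k] b)) = epsHom e A' (φ a ⊗ₜ[k] b)
    rw [epsHom_tmul, epsHom_tmul, map_mul, AlgHom.commutes]
  | add x y hx hy => rw [map_add, map_add, map_add, map_add, hx, hy]

/-- Rigidifiability lifts along a nilpotent thickening `A → A ⧸ I`. -/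
theorem rigidifiable_of_isBC (e : B₁ →ₐ[k] k) {A : Type u} [CommRing A] [Algebra k A]
    (I : Ideal A) {n : ℕ} (hI : I ^ n = ⊥)
    (G : CurveGD k B₀ B₁ B₀₁ A) (G₀ : CurveGD k B₀ B₁ B₀₁ (A ⧸ I))
    (hBC : CurveGD.IsBC (Ideal.Quotient.mkₐ k I) G G₀) (hrig : G₀.Rigidifiable e) :
    G.Rigidifiable e := by
  obtain ⟨bc⟩ := hBC
  obtain ⟨bbar, hbbar⟩ := hrig
  have hsq : ∀ r, ((Ideal.Quotient.mk I).comp (epsHom e A).toRingHom) r =
      (epsHom e (A ⧸ I)).toRingHom (tensorMapLeft k (Ideal.Quotient.mkₐ k I) B₁ r) := fun r =>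
    epsHom_tensorMapLeft e (Ideal.Quotient.mkₐ k I) r
  have hs : Function.Surjective (Ideal.Quotient.mk I) := Ideal.Quotient.mk_surjective
  have hn : ∀ x ∈ RingHom.ker (Ideal.Quotient.mk I), IsNilpotent x := by
    intro x hx
    rw [Ideal.mk_ker] at hx
    refine ⟨n, ?_⟩
    have h1 : x ^ n ∈ I ^ n := Ideal.pow_mem_pow hx n
    rw [hI] at h1
    simpa using h1
  -- the composite base change `N₁ → A ⧸ I`
  let β : G.N₁ →ₛₗ[(Ideal.Quotient.mk I).comp (epsHom e A).toRingHom] (A ⧸ I) :=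
    { toFun := fun z => bbar (bc.b₁ z)
      map_add' := fun x y => by rw [map_add, map_add]
      map_smul' := fun r z => by
        rw [LinearMap.map_smulₛₗ, LinearMap.map_smulₛₗ, hsq] }
  have hβ : IsSemilinearBaseChange ((Ideal.Quotient.mk I).comp (epsHom e A).toRingHom) β :=
    isSemilinearBaseChange_comp (tensorMapLeft k (Ideal.Quotient.mkₐ k I) B₁)
      (epsHom e (A ⧸ I)).toRingHom ((Ideal.Quotient.mk I).comp (epsHom e A).toRingHom) hsq
      bc.b₁ bc.isBaseChange₁ bbar hbbar β (fun _ => rfl)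
  obtain ⟨Q, iQ1, iQ2, m, hm, hinv⟩ :=
    exists_isSemilinearBaseChange (epsHom e A).toRingHom G.N₁
  haveI : Module.Invertible A Q := hinv G.invertible₁
  obtain ⟨c, hc, hcm⟩ := exists_factor (epsHom e A).toRingHom (Ideal.Quotient.mk I)
    ((Ideal.Quotient.mk I).comp (epsHom e A).toRingHom) (fun r => rfl) m hm β hβ
  obtain ⟨ψ, hψ⟩ := exists_linearEquiv_of_semilinear (Ideal.Quotient.mk I) hs hn hc
    (isSemilinearBaseChange_ringHom (Ideal.Quotient.mk I))
  exact ⟨(ψ : Q →ₗ[A] A).comp m,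
    isSemilinearBaseChange_equiv_comp' (epsHom e A).toRingHom m hm ψ⟩

end Rig

end Fermat.Agent.S25.H551
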