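import Fermat.Agent.S25.H205.BridgeDef
import Fermat.Agent.S25.H805.BridgeDef
import Fermat.Agent.S25.H551.RigLift

/-!
# S25: the GDC input `RigLift` of the master assembly (helper551)

`rigLift205 : H205.RigLift B₀ B₁ B₀₁ e` and `rigLifts805 : H805.RigLifts k B₀ B₁ B₀₁ e`,
both unconditional.
-/

set_option autoImplicit false

universe u

namespace Fermat.Agent.S25.H551

open Fermat.Agent.S25

variable {k : Type u} [Field k] (B₀ B₁ B₀₁ : Type u) [CommRing B₀] [CommRing B₁]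
  [CommRing B₀₁] [Algebra k B₀] [Algebra k B₁] [Algebra k B₀₁] [Algebra B₀ B₀₁]
  [Algebra B₁ B₀₁] [IsScalarTower k B₀ B₀₁] [IsScalarTower k B₁ B₀₁]

/-- The GDC fact `H205.RigLift` (input of `Assembly.result_of_blocks`). -/
theorem rigLift205 (e : B₁ →ₐ[k] k) : H205.RigLift B₀ B₁ B₀₁ e :=
  fun _ _ _ I hI G G₀ hBC hrig => rigidifiable_of_isBC e I hI G G₀ hBC hrig

/-- The GDC fact `H805.RigLifts`. -/
theorem rigLifts805 (e : B₁ →ₐ[k] k) : H805.RigLifts k B₀ B₁ B₀₁ e :=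
  fun _ _ _ I hI G G₀ hBC hrig => rigidifiable_of_isBC e I hI G G₀ hBC hrig

end Fermat.Agent.S25.H551
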