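import Mathlib
import Fermat.Agent.S25.H11.ProjAlg
import Fermat.Agent.S25.H911.InvLocal

/-!
# S25 / ALGCHARTS, shared sub-lemma SH2 (helper551): quotients by products of section ideals

For an `A`-algebra `R`, retractions `π i : R → A` with invertible kernels and an invertible
`R`-module `N`, the quotient `N ⧸ (∏ ker (π i)) N` is a finite projective `A`-module of rank
the number of factors (`quot_prod_ker_smul_top`).  Pure commutative algebra.
-/

set_option autoImplicit false
set_option linter.style.haveILetI false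

universe u

open scoped TensorProduct

namespace Fermat.Agent.S25.H551

section Ext

variable {A : Type u} [CommRing A]

/-- An extension of finite projective modules is finite projective, and ranks add. -/
theorem finite_projective_of_exact {K M P : Type u} [AddCommGroup K] [Module A K]
    [AddCommGroup M] [Module A M] [AddCommGroup P] [Module A P]
    (f : K →ₗ[A] M) (g : M →ₗ[A] P) (hf : Function.Injective f) (hg : Function.Surjective g)
    (hfg : Function.Exact f g) [Module.Finite A K] [Module.Projective A K] [Module.Finite A P]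
    [Module.Projective A P] :
    Module.Finite A M ∧ Module.Projective A M ∧
      Module.rankAtStalk (R := A) M = Module.rankAtStalk K + Module.rankAtStalk P := by
  obtain ⟨σ, hσ⟩ := Module.projective_lifting_property g LinearMap.id hg
  obtain ⟨e, -, -⟩ := hfg.splitSurjectiveEquiv hf ⟨σ, hσ⟩
  refine ⟨Module.Finite.equiv e.symm, Module.Projective.of_equiv e.symm, ?_⟩
  rw [Module.rankAtStalk_eq_of_equiv e, Module.rankAtStalk_prod]

end Ext

section SmulTop

variable {R : Type u} [CommRing R]

/-- The multiplication map `I ⊗ N → N`. -/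
noncomputable def idealSmulMap (I : Ideal R) (N : Type u) [AddCommGroup N] [Module R N] :
    I ⊗[R] N →ₗ[R] N :=
  TensorProduct.lift ((LinearMap.lsmul R N).comp I.subtype)

@[simp] theorem idealSmulMap_tmul (I : Ideal R) (N : Type u) [AddCommGroup N] [Module R N]
    (a : I) (n : N) : idealSmulMap I N (a ⊗ₜ[R] n) = (a : R) • n := by
  simp [idealSmulMap]

theorem range_idealSmulMap (I : Ideal R) (N : Type u) [AddCommGroup N] [Module R N] :
    LinearMap.range (idealSmulMap I N) = I • (⊤ : Submodule R N) := by
  apply le_antisymm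
  · rintro _ ⟨z, rfl⟩
    induction z using TensorProduct.induction_on with
    | zero => simp
    | tmul a n => simpa using Submodule.smul_mem_smul a.2 (Submodule.mem_top (x := n))
    | add z w hz hw => rw [map_add]; exact Submodule.add_mem _ hz hw
  · rw [Submodule.smul_le]
    intro a ha n _
    exact ⟨(⟨a, ha⟩ : I) ⊗ₜ[R] n, by simp⟩

theorem idealSmulMap_injective (I : Ideal R) (N : Type u) [AddCommGroup N] [Module R N]
    [Module.Flat R N] : Function.Injective (idealSmulMap I N) := by
  have h1 : Function.Injective (LinearMap.rTensor N I.subtype) :=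
    Module.Flat.rTensor_preserves_injective_linearMap _ I.subtype_injective
  have h2 : idealSmulMap I N =
      (TensorProduct.lid R N).toLinearMap ∘ₗ LinearMap.rTensor N I.subtype := by
    ext a b
    simp
  rw [h2]
  exact (TensorProduct.lid R N).injective.comp h1

/-- `I ⊗ N ≃ I N` for a flat module `N`. -/
noncomputable def tensorEquivSmulTop (I : Ideal R) (N : Type u) [AddCommGroup N] [Module R N]
    [Module.Flat R N] : I ⊗[R] N ≃ₗ[R] ↥(I • (⊤ : Submodule R N)) :=
  (LinearEquiv.ofInjective (idealSmulMap I N) (idealSmulMap_injective I N)).trans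
    (LinearEquiv.ofEq _ _ (range_idealSmulMap I N))

/-- `I N` is invertible if the ideal `I` and the module `N` are. -/
theorem invertible_smul_top (I : Ideal R) [Module.Invertible R I] (N : Type u)
    [AddCommGroup N] [Module R N] [Module.Invertible R N] :
    Module.Invertible R ↥(I • (⊤ : Submodule R N)) :=
  Module.Invertible.congr (tensorEquivSmulTop I N)

end SmulTop

section Single

variable {A R : Type u} [CommRing A] [CommRing R] [Algebra A R]

/-- The quotient of an invertible module `N` by `I N` is invertible over `R ⧸ I`. -/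
theorem invertible_quot_smul_top (I : Ideal R) (N : Type u) [AddCommGroup N] [Module R N]
    [Module.Invertible R N] :
    Module.Invertible (R ⧸ I) (N ⧸ I • (⊤ : Submodule R N)) :=
  Module.Invertible.congr
    ((TensorProduct.quotTensorEquivQuotSMul N I).extendScalarsOfSurjective
      Ideal.Quotient.mk_surjective)

/-- For a retraction `π : R → A` of an `A`-algebra `R` and an invertible `R`-module `N`,
`N ⧸ (ker π) N` is a finite projective `A`-module of rank one. -/
theorem quot_ker_smul_top (π : R →ₐ[A] A) (N : Type u) [AddCommGroup N] [Module R N]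
    [Module A N] [IsScalarTower A R N] [Module.Invertible R N] :
    Module.Finite A (N ⧸ (RingHom.ker π • ⊤ : Submodule R N)) ∧
      Module.Projective A (N ⧸ (RingHom.ker π • ⊤ : Submodule R N)) ∧
      ∀ p : PrimeSpectrum A,
        Module.rankAtStalk (R := A) (N ⧸ (RingHom.ker π • ⊤ : Submodule R N)) p = 1 := by
  have hsurj : Function.Surjective π := fun a => ⟨algebraMap A R a, by simp⟩
  let e : (R ⧸ RingHom.ker π) ≃ₐ[A] A := Ideal.quotientKerAlgEquivOfSurjective hsurj
  haveI : Module.Finite A (R ⧸ RingHom.ker π) := Module.Finite.equiv e.symm.toLinearEquiv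
  haveI : Module.Projective A (R ⧸ RingHom.ker π) :=
    Module.Projective.of_equiv e.symm.toLinearEquiv
  haveI := invertible_quot_smul_top (RingHom.ker π) N
  refine ⟨H11.finite_of_tower A (R ⧸ RingHom.ker π) _,
    H11.projective_of_tower A (R ⧸ RingHom.ker π) _, fun p => ?_⟩
  rw [H11.rankAtStalk_eq_of_invertible A (R ⧸ RingHom.ker π),
    Module.rankAtStalk_eq_of_equiv e.toLinearEquiv]
  exact H911.rankAtStalk_eq_one_of_invertible p

end Single

section Step

variable {A R : Type u} [CommRing A] [CommRing R] [Algebra A R]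

/-- The extension step: `N ⧸ (𝔪 I) N` is an extension of `N ⧸ 𝔪 N` by `𝔪 N ⧸ I (𝔪 N)`. -/
theorem quot_mul_smul_top (𝔪 I : Ideal R) (N : Type u) [AddCommGroup N] [Module R N]
    [Module A N] [IsScalarTower A R N]
    (h1 : Module.Finite A (N ⧸ (𝔪 • ⊤ : Submodule R N)) ∧
      Module.Projective A (N ⧸ (𝔪 • ⊤ : Submodule R N)))
    (h2 : Module.Finite A (↥(𝔪 • ⊤ : Submodule R N) ⧸
        (I • ⊤ : Submodule R ↥(𝔪 • ⊤ : Submodule R N))) ∧
      Module.Projective A (↥(𝔪 • ⊤ : Submodule R N) ⧸
        (I • ⊤ : Submodule R ↥(𝔪 • ⊤ : Submodule R N)))) :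
    Module.Finite A (N ⧸ ((𝔪 * I) • ⊤ : Submodule R N)) ∧
      Module.Projective A (N ⧸ ((𝔪 * I) • ⊤ : Submodule R N)) ∧
      Module.rankAtStalk (R := A) (N ⧸ ((𝔪 * I) • ⊤ : Submodule R N)) =
        Module.rankAtStalk (R := A) (↥(𝔪 • ⊤ : Submodule R N) ⧸
          (I • ⊤ : Submodule R ↥(𝔪 • ⊤ : Submodule R N))) +
        Module.rankAtStalk (R := A) (N ⧸ (𝔪 • ⊤ : Submodule R N)) := by
  obtain ⟨h1f, h1p⟩ := h1
  obtain ⟨h2f, h2p⟩ := h2
  set T : Submodule R N := 𝔪 • ⊤ with hT
  set S : Submodule R N := (𝔪 * I) • ⊤ with hS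
  have hSeq : S = I • T := by
    rw [hS, hT, mul_comm, Submodule.mul_smul]
  have hST : S ≤ T := by
    rw [hSeq]
    exact Submodule.smul_le_right
  have hmap : (I • ⊤ : Submodule R ↥T).map T.subtype = S := by
    rw [Submodule.map_smul'', Submodule.map_top, Submodule.range_subtype, hSeq]
  have hle : (I • ⊤ : Submodule R ↥T) ≤ S.comap T.subtype := by
    rw [← Submodule.map_le_iff_le_comap, hmap]
  let fR : (↥T ⧸ (I • ⊤ : Submodule R ↥T)) →ₗ[R] N ⧸ S := Submodule.mapQ _ S T.subtype hle
  let gR : (N ⧸ S) →ₗ[R] N ⧸ T := Submodule.mapQ S T LinearMap.id hST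
  have hfR : ∀ t : ↥T, fR (Submodule.Quotient.mk t) = Submodule.Quotient.mk (t : N) :=
    fun t => Submodule.mapQ_apply _ _ _ _
  have hgR : ∀ n : N, gR (Submodule.Quotient.mk n) = Submodule.Quotient.mk n :=
    fun n => Submodule.mapQ_apply _ _ _ _
  have hf : Function.Injective (fR.restrictScalars A) := by
    rw [LinearMap.coe_restrictScalars, injective_iff_map_eq_zero]
    intro z hz
    obtain ⟨t, rfl⟩ := Submodule.Quotient.mk_surjective _ z
    rw [hfR, Submodule.Quotient.mk_eq_zero, ← hmap] at hz
    obtain ⟨t', ht', htt⟩ := hz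
    have : t' = t := Subtype.ext htt
    rw [Submodule.Quotient.mk_eq_zero, ← this]
    exact ht'
  have hg : Function.Surjective (gR.restrictScalars A) := by
    rw [LinearMap.coe_restrictScalars]
    intro z
    obtain ⟨n, rfl⟩ := Submodule.Quotient.mk_surjective _ z
    exact ⟨Submodule.Quotient.mk n, hgR n⟩
  have hex : Function.Exact (fR.restrictScalars A) (gR.restrictScalars A) := by
    intro z
    rw [LinearMap.coe_restrictScalars, LinearMap.coe_restrictScalars]
    obtain ⟨n, rfl⟩ := Submodule.Quotient.mk_surjective _ z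
    rw [hgR, Submodule.Quotient.mk_eq_zero]
    constructor
    · intro hn
      exact ⟨Submodule.Quotient.mk ⟨n, hn⟩, hfR _⟩
    · rintro ⟨w, hw⟩
      obtain ⟨t, rfl⟩ := Submodule.Quotient.mk_surjective _ w
      rw [hfR, Submodule.Quotient.eq] at hw
      have h3 : (t : N) - n ∈ T := hST hw
      have h4 : n = (t : N) - ((t : N) - n) := by abel
      rw [h4]
      exact T.sub_mem t.2 h3
  exact finite_projective_of_exact (fR.restrictScalars A) (gR.restrictScalars A) hf hg hex

/-- For retractions `π i : R → A` with invertible kernels and an invertible `R`-module `N`,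
`N ⧸ (∏ ker (π i)) N` is a finite projective `A`-module of rank the number of factors. -/
theorem quot_prod_ker_smul_top {ι : Type*} (π : ι → (R →ₐ[A] A))
    (hπ : ∀ i, Module.Invertible R (RingHom.ker (π i)))
    (s : Finset ι) (N : Type u) [AddCommGroup N] [Module R N] [Module A N]
    [IsScalarTower A R N] [Module.Invertible R N] :
    Module.Finite A (N ⧸ ((∏ i ∈ s, RingHom.ker (π i)) • ⊤ : Submodule R N)) ∧
      Module.Projective A (N ⧸ ((∏ i ∈ s, RingHom.ker (π i)) • ⊤ : Submodule R N)) ∧
      ∀ p : PrimeSpectrum A, Module.rankAtStalk (R := A)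
        (N ⧸ ((∏ i ∈ s, RingHom.ker (π i)) • ⊤ : Submodule R N)) p = s.card := by
  classical
  have key : ∀ (s : Finset ι) (N : Type u) [AddCommGroup N] [Module R N] [Module A N]
      [IsScalarTower A R N] [Module.Invertible R N],
      Module.Finite A (N ⧸ ((∏ i ∈ s, RingHom.ker (π i)) • ⊤ : Submodule R N)) ∧
        Module.Projective A (N ⧸ ((∏ i ∈ s, RingHom.ker (π i)) • ⊤ : Submodule R N)) ∧
        ∀ p : PrimeSpectrum A, Module.rankAtStalk (R := A)
          (N ⧸ ((∏ i ∈ s, RingHom.ker (π i)) • ⊤ : Submodule R N)) p = s.card := by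
    intro s
    induction s using Finset.induction_on with
    | empty =>
      intro N _ _ _ _ _
      have h : ((∏ i ∈ (∅ : Finset ι), RingHom.ker (π i)) • ⊤ : Submodule R N) = ⊤ := by
        rw [Finset.prod_empty, Ideal.one_eq_top, Submodule.top_smul]
      rw [h]
      haveI : Subsingleton (N ⧸ (⊤ : Submodule R N)) :=
        Submodule.Quotient.subsingleton_iff.mpr rfl
      refine ⟨inferInstance, inferInstance, fun p => ?_⟩
      rw [Module.rankAtStalk_eq_zero_of_subsingleton]
      simp
    | insert a t ha ih =>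
      intro N _ _ _ _ _
      rw [Finset.prod_insert ha]
      haveI := hπ a
      haveI := invertible_smul_top (RingHom.ker (π a)) N
      obtain ⟨h1f, h1p, h1r⟩ := quot_ker_smul_top (π a) N
      obtain ⟨h2f, h2p, h2r⟩ := ih ↥(RingHom.ker (π a) • ⊤ : Submodule R N)
      obtain ⟨h3f, h3p, h3r⟩ := quot_mul_smul_top (A := A) (RingHom.ker (π a))
        (∏ i ∈ t, RingHom.ker (π i)) N ⟨h1f, h1p⟩ ⟨h2f, h2p⟩
      refine ⟨h3f, h3p, fun p => ?_⟩
      rw [h3r, Pi.add_apply, h1r, h2r, Finset.card_insert_of_notMem ha]
  exact key s N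

end Step

end Fermat.Agent.S25.H551
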