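import Fermat.Agent.S25.H11.ACDefs
import Fermat.Agent.S25.H71.ACPtUnique
import Fermat.Agent.S25.H250.DegSec
import Fermat.Agent.S25.H970.ACSec
import Fermat.Agent.S25.H971.GlueBC
import Fermat.Agent.S25.H551.Invertible
import Fermat.Agent.S25.H551.ACQuot

/-!
# S25 / ALGCHARTS, leaf ST2, part 1 (helper551): `H⁰(G(nE₀ - Σq))` is an invertible module

For a gluing datum `G` over `A` of degree `0` on the fibres with `P1` and a numeric chart
index, `secq x n q G = ker (H⁰(G(nE₀)) → N₀ / I_q N₀)` is an invertible `A`-module: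

* `quotient_vanq` : `N₀ / I_q N₀` is finite projective of rank `m` over `A` (SH2);
* `rankAtStalk_sec_add` : `rank H⁰(G(nE₀)) + g = n d + 1` at every prime (DEG1 on the fibres);
* `secq_invertible`.
-/

set_option autoImplicit false
set_option linter.style.haveILetI false
set_option linter.unusedSectionVars false

universe u

open scoped TensorProduct

namespace Fermat.Agent.S25.H551

open Fermat.Agent.S25 Fermat.Agent.S25.H11

variable {k : Type u} [Field k] [IsAlgClosed k]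
  {B₀ B₁ B₀₁ : Type u} [CommRing B₀] [CommRing B₁] [CommRing B₀₁]
  [Algebra k B₀] [Algebra k B₁] [Algebra k B₀₁] [Algebra B₀ B₀₁] [Algebra B₁ B₀₁]
  [IsScalarTower k B₀ B₀₁] [IsScalarTower k B₁ B₀₁]
  {x : B₀} {y : B₁} {e : B₁ →ₐ[k] k}
  {A : Type u} [CommRing A] [Algebra k A]

/-- **SH2.** `N₀ / I_q N₀` is a finite projective `A`-module of rank `m`. -/
theorem quotient_vanq (hC : IsCurveChart k B₀ B₁ B₀₁ x y e) {m : ℕ}
    (q : Fin m → (B₀ →ₐ[k] k)) (G : CurveGD k B₀ B₁ B₀₁ A) :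
    Module.Finite A (G.N₀ ⧸ vanq q G) ∧ Module.Projective A (G.N₀ ⧸ vanq q G) ∧
      ∀ p : PrimeSpectrum A, Module.rankAtStalk (R := A) (G.N₀ ⧸ vanq q G) p = m := by
  haveI := G.invertible₀
  have h := quot_prod_ker_smul_top (A := A) (fun i => ptHom (q i) A)
    (fun i => H71.ker_ptHom_invertible hC (q i) A) Finset.univ G.N₀
  rw [Finset.card_univ, Fintype.card_fin] at h
  exact h

/-- The rank of `H⁰(G(nE₀))` at every prime: `rank + g = n d + 1`. -/
theorem rankAtStalk_sec_add (hC : IsCurveChart k B₀ B₁ B₀₁ x y e)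
    (G : CurveGD k B₀ B₁ B₀₁ A) (hdeg : G.Deg0) (n : ℕ) (h0 : P0 x n G)
    (p : PrimeSpectrum A) :
    Module.rankAtStalk (R := A) (sec x n G) p +
        Module.finrank k (GlueDatum.unit k (k ⊗[k] B₀) (k ⊗[k] B₁) (k ⊗[k] B₀₁)).H1 =
      n * Module.finrank k (B₁ ⧸ Ideal.span {y}) + 1 := by
  let ψ : A →ₐ[k] p.asIdeal.ResidueField := IsScalarTower.toAlgHom k A p.asIdeal.ResidueField
  obtain ⟨G', hG'⟩ := H971.exists_curveGD_baseChange B₀ B₁ B₀₁ ψ G
  have hd : G'.degree = 0 := hdeg _ ψ G' hG'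
  obtain ⟨bm⟩ := hG'
  have h0' : P0 x n G' := H970.P0_of_baseChangeMaps hC.mul_eq_one ψ bm n h0
  obtain ⟨hfin, hrk⟩ := H250.finrank_sec hC G' hd n h0'
  let p' : PrimeSpectrum p.asIdeal.ResidueField := ⟨⊥, Ideal.isPrime_bot⟩
  have hcomap : PrimeSpectrum.comap ψ.toRingHom p' = p := by
    apply PrimeSpectrum.ext
    show Ideal.comap ψ.toRingHom ⊥ = p.asIdeal
    rw [← RingHom.ker_eq_comap_bot]
    exact Ideal.ker_algebraMap_residueField p.asIdeal
  have h1 := H970.rankAtStalk_sec_eq hC ψ bm n h0 p'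
  rw [hcomap] at h1
  rw [← h1, Module.rankAtStalk_eq_finrank_of_free]
  exact hrk

/-- The evaluation map `H⁰(G(nE₀)) → N₀ / I_q N₀`. -/
noncomputable def evq (x : B₀) (n : ℕ) {m : ℕ} (q : Fin m → (B₀ →ₐ[k] k))
    (G : CurveGD k B₀ B₁ B₀₁ A) : sec x n G →ₗ[A] (G.N₀ ⧸ vanq q G) :=
  ((vanq q G).mkQ.restrictScalars A) ∘ₗ (LinearMap.fst A G.N₀ G.N₁) ∘ₗ (sec x n G).subtype

omit [IsAlgClosed k] in
@[simp] theorem evq_apply (x : B₀) (n : ℕ) {m : ℕ} (q : Fin m → (B₀ →ₐ[k] k))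
    (G : CurveGD k B₀ B₁ B₀₁ A) (s : sec x n G) :
    evq x n q G s = Submodule.Quotient.mk (s : G.N₀ × G.N₁).1 := rfl

omit [IsAlgClosed k] in
theorem evq_surjective {n : ℕ} {m : ℕ} {q : Fin m → (B₀ →ₐ[k] k)}
    {G : CurveGD k B₀ B₁ B₀₁ A} (h1 : P1 x n q G) : Function.Surjective (evq x n q G) := by
  intro z
  obtain ⟨a, rfl⟩ := Submodule.Quotient.mk_surjective _ z
  obtain ⟨s, hs, hv⟩ := h1.2 a
  refine ⟨⟨s, hs⟩, ?_⟩
  rw [evq_apply]
  exact ((Submodule.Quotient.eq _).mpr hv).symm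

/-- The inclusion `H⁰(G(nE₀ - Σq)) → H⁰(G(nE₀))`. -/
noncomputable def secqIncl (x : B₀) (n : ℕ) {m : ℕ} (q : Fin m → (B₀ →ₐ[k] k))
    (G : CurveGD k B₀ B₁ B₀₁ A) : secq x n q G →ₗ[A] sec x n G :=
  Submodule.inclusion inf_le_left

omit [IsAlgClosed k] in
theorem secqIncl_injective (x : B₀) (n : ℕ) {m : ℕ} (q : Fin m → (B₀ →ₐ[k] k))
    (G : CurveGD k B₀ B₁ B₀₁ A) : Function.Injective (secqIncl x n q G) :=
  Submodule.inclusion_injective _

omit [IsAlgClosed k] in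
theorem exact_secqIncl_evq (x : B₀) (n : ℕ) {m : ℕ} (q : Fin m → (B₀ →ₐ[k] k))
    (G : CurveGD k B₀ B₁ B₀₁ A) : Function.Exact (secqIncl x n q G) (evq x n q G) := by
  intro s
  rw [evq_apply, Submodule.Quotient.mk_eq_zero]
  constructor
  · intro hv
    exact ⟨⟨s.1, ⟨s.2, hv⟩⟩, rfl⟩
  · rintro ⟨t, rfl⟩
    exact t.2.2

/-- **`H⁰(G(nE₀ - Σq))` is an invertible `A`-module** for a datum of degree `0` with `P1`
and a numeric chart index. -/
theorem secq_invertible (hC : IsCurveChart k B₀ B₁ B₀₁ x y e) (i : ChartIndex k B₀)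
    (hnum : i.Numeric B₀₁ y) (G : CurveGD k B₀ B₁ B₀₁ A) (hdeg : G.Deg0)
    (h1 : P1 x i.n i.q G) : Module.Invertible A (secq x i.n i.q G) := by
  obtain ⟨hQf, hQp, hQr⟩ := quotient_vanq hC i.q G
  obtain ⟨-, hSf, hSp⟩ := H970.sec_finite_projective hC i.n G h1.1
  obtain ⟨σ, hσ⟩ := Module.projective_lifting_property (evq x i.n i.q G) LinearMap.id
    (evq_surjective h1)
  obtain ⟨E, hE1, -⟩ := (exact_secqIncl_evq x i.n i.q G).splitSurjectiveEquiv
    (secqIncl_injective x i.n i.q G) ⟨σ, hσ⟩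
  -- `secq` is a direct summand of `sec`
  let r : sec x i.n G →ₗ[A] secq x i.n i.q G :=
    (LinearMap.fst A _ _) ∘ₗ E.toLinearMap
  have hr : r ∘ₗ secqIncl x i.n i.q G = LinearMap.id := by
    ext1 t
    show (E (secqIncl x i.n i.q G t)).1 = t
    rw [hE1]
    simp
  haveI : Module.Projective A (secq x i.n i.q G) :=
    Module.Projective.of_split (secqIncl x i.n i.q G) r hr
  haveI : Module.Finite A (secq x i.n i.q G) :=
    Module.Finite.of_surjective r (fun t => ⟨secqIncl x i.n i.q G t, LinearMap.congr_fun hr t⟩)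
  refine invertible_of_rankAtStalk_eq_one _ (fun p => ?_)
  have hrank : Module.rankAtStalk (R := A) (sec x i.n G) p =
      Module.rankAtStalk (R := A) (secq x i.n i.q G) p +
        Module.rankAtStalk (R := A) (G.N₀ ⧸ vanq i.q G) p := by
    rw [Module.rankAtStalk_eq_of_equiv E, Module.rankAtStalk_prod, Pi.add_apply]
  have h2 := rankAtStalk_sec_add hC G hdeg i.n h1.1 p
  have h3 := hnum.1
  have h4 := hnum.2
  rw [hQr p] at hrank
  omega

end Fermat.Agent.S25.H551
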