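import Fermat.Agent.S25.H11.ACLeaves
import Fermat.Agent.S25.H791.ACStage1
import Fermat.Agent.S25.H265.GDCRig
import Fermat.Agent.S25.H551.ACSecq

/-!
# S25 / ALGCHARTS, leaf ST2 (helper551): `stage2_locus`

Exact skeleton statement `stage2_locus` and `leaf_stage2 : H11.Leaf.Stage2 k B₀ B₁ B₀₁`.

For `G` over `A` with `P1`, let `genSub G = y N₁ + R₁ · snd (H⁰(G(nE₀ - Σq)))` and
`J = Ann_A (N₁ / genSub G)` (a finite `A`-module).  For a base change `G'` over `A'`:

* `P1` holds for `G'` (`p1_of_isBC`), `G'` is rigidifiable of degree `0`, so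
  `H⁰(G'(nE₀ - Σq))` is an invertible `A'`-module (`secq_invertible`, `H551/ACSecq.lean`);
* `exists_isGen_iff` : there is a generator iff `genSub G' = ⊤` (the rigidification gives a
  surjection `H⁰ → A'`, bijective by invertibility);
* `mem_span_of_mem_secq`, `genSub_eq_top_iff_span`, `span_image_eq_top_iff` :
  `genSub G' = ⊤` iff `A' ⊗ (N₁ / genSub G) = 0` (right exactness);
* `H791.subsingleton_tensorProduct_iff` : iff `J A' = A'`.
-/

set_option autoImplicit false
set_option linter.style.haveILetI false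
set_option linter.unusedSectionVars false

universe u

open scoped TensorProduct

namespace Fermat.Agent.S25.H551

open Fermat.Agent.S25 Fermat.Agent.S25.H11

section Alg

/-- A semilinear base change along a surjective ring map is surjective. -/
theorem surjective_of_isSemilinearBaseChange {R A : Type u} [CommRing R] [CommRing A]
    (ε : R →+* A) (hε : Function.Surjective ε) {N : Type u} [AddCommGroup N] [Module R N]
    (b : N →ₛₗ[ε] A) (hb : IsSemilinearBaseChange ε b) : Function.Surjective b := by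
  unfold IsSemilinearBaseChange at hb
  letI : Algebra R A := ε.toAlgebra
  letI : Module R A := Module.compHom A ε
  haveI : IsScalarTower R A A := ⟨fun r r' n => by
    change (ε r * r') • n = ε r • (r' • n); rw [mul_smul]⟩
  intro a
  refine hb.inductionOn a (motive := fun z => ∃ n, b n = z) ⟨0, map_zero b⟩
    (fun m => ⟨m, rfl⟩) ?_ ?_
  · rintro s _ ⟨n, rfl⟩
    obtain ⟨r, rfl⟩ := hε s
    exact ⟨r • n, by rw [b.map_smulₛₗ]⟩
  · rintro _ _ ⟨n, rfl⟩ ⟨n', rfl⟩
    exact ⟨n + n', map_add b n n'⟩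

end Alg

variable {k : Type u} [Field k]
  {B₀ B₁ B₀₁ : Type u} [CommRing B₀] [CommRing B₁] [CommRing B₀₁]
  [Algebra k B₀] [Algebra k B₁] [Algebra k B₀₁] [Algebra B₀ B₀₁] [Algebra B₁ B₀₁]
  [IsScalarTower k B₀ B₀₁] [IsScalarTower k B₁ B₀₁]
  {x : B₀} {y : B₁} {e : B₁ →ₐ[k] k}

section One

variable {A : Type u} [CommRing A] [Algebra k A]

/-- The submodule `y N₁ + R₁ · snd (H⁰(G(nE₀ - Σq)))` of `N₁`. -/
def genSub (x : B₀) (y : B₁) (n : ℕ) {m : ℕ} (q : Fin m → (B₀ →ₐ[k] k))
    (G : CurveGD k B₀ B₁ B₀₁ A) : Submodule (A ⊗[k] B₁) G.N₁ :=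
  (Ideal.span {yElt k A y} • ⊤) ⊔
    Submodule.span (A ⊗[k] B₁) (Prod.snd '' (secq x n q G : Set (G.N₀ × G.N₁)))

theorem smul_top_le_genSub (x : B₀) (y : B₁) (n : ℕ) {m : ℕ} (q : Fin m → (B₀ →ₐ[k] k))
    (G : CurveGD k B₀ B₁ B₀₁ A) :
    (Ideal.span {yElt k A y} • ⊤ : Submodule (A ⊗[k] B₁) G.N₁) ≤ genSub x y n q G :=
  le_sup_left

theorem snd_mem_genSub {n : ℕ} {m : ℕ} {q : Fin m → (B₀ →ₐ[k] k)}
    {G : CurveGD k B₀ B₁ B₀₁ A} {s : G.N₀ × G.N₁} (hs : s ∈ secq x n q G) :
    s.2 ∈ genSub x y n q G :=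
  Submodule.mem_sup_right (Submodule.subset_span ⟨s, hs, rfl⟩)

theorem yElt_smul_mem_genSub (x : B₀) (y : B₁) (n : ℕ) {m : ℕ} (q : Fin m → (B₀ →ₐ[k] k))
    (G : CurveGD k B₀ B₁ B₀₁ A) (c : G.N₁) : yElt k A y • c ∈ genSub x y n q G :=
  Submodule.mem_sup_left
    (Submodule.smul_mem_smul (Ideal.subset_span rfl) Submodule.mem_top)

/-- A generator gives `genSub = ⊤`. -/
theorem genSub_eq_top_of_isGen {n : ℕ} {m : ℕ} {q : Fin m → (B₀ →ₐ[k] k)}
    {G : CurveGD k B₀ B₁ B₀₁ A} {s : G.N₀ × G.N₁} (hs : IsGen x y n q G s) :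
    genSub x y n q G = ⊤ := by
  rw [Submodule.eq_top_iff']
  intro c
  obtain ⟨r, hr⟩ := hs.gen c
  have hc : c = (c - r • s.2) + r • s.2 := by abel
  rw [hc]
  exact Submodule.add_mem _ (smul_top_le_genSub x y n q G hr)
    (Submodule.smul_mem _ r (snd_mem_genSub hs.mem))

theorem epsHom_yElt (hC : IsCurveChart k B₀ B₁ B₀₁ x y e) :
    epsHom e A (yElt k A y) = 0 := by
  rw [yElt, H265.epsHom_apply_tmul, hC.e_y, map_zero, mul_zero]

theorem epsHom_surjective (e : B₁ →ₐ[k] k) (A : Type u) [CommRing A] [Algebra k A] :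
    Function.Surjective (epsHom e A) := fun a =>
  ⟨algebraMap A (A ⊗[k] B₁) a, (epsHom e A).commutes a⟩

/-- **Freeness from rigidification.** If `genSub = ⊤`, `G` is rigidifiable and
`H⁰(G(nE₀ - Σq))` is invertible, there is a generator. -/
theorem exists_isGen_of_genSub_eq_top (hC : IsCurveChart k B₀ B₁ B₀₁ x y e) {n : ℕ} {m : ℕ}
    {q : Fin m → (B₀ →ₐ[k] k)} {G : CurveGD k B₀ B₁ B₀₁ A} (hrig : G.Rigidifiable e)
    [Module.Invertible A (secq x n q G)] (htop : genSub x y n q G = ⊤) :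
    ∃ s, IsGen x y n q G s := by
  obtain ⟨b, hb⟩ := hrig
  have hbs : Function.Surjective b :=
    surjective_of_isSemilinearBaseChange _ (epsHom_surjective e A) b hb
  have hbsm : ∀ (r : A ⊗[k] B₁) (c : G.N₁), b (r • c) = epsHom e A r * b c := fun r c => by
    rw [b.map_smulₛₗ]; rfl
  have hba : ∀ (a : A) (c : G.N₁), b (a • c) = a * b c := fun a c => by
    rw [← algebraMap_smul (A ⊗[k] B₁) a c, hbsm, AlgHom.commutes]
    rfl
  -- the `A`-linear map `H⁰ → A`
  let lam : secq x n q G →ₗ[A] A :=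
    { toFun := fun s => b (s : G.N₀ × G.N₁).2
      map_add' := fun s t => by
        show b ((s : G.N₀ × G.N₁) + (t : G.N₀ × G.N₁)).2 = _
        rw [Prod.snd_add, map_add]
      map_smul' := fun a s => by
        show b (a • (s : G.N₀ × G.N₁)).2 = _
        rw [Prod.smul_snd, hba]
        rfl }
  have hlam : ∀ s : secq x n q G, lam s = b (s : G.N₀ × G.N₁).2 := fun _ => rfl
  -- `b` maps `genSub` into the range of `lam`
  have hspanrange : ∀ v ∈ Submodule.span (A ⊗[k] B₁)
      (Prod.snd '' (secq x n q G : Set (G.N₀ × G.N₁))), b v ∈ LinearMap.range lam := by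
    intro v hv
    induction hv using Submodule.span_induction with
    | mem v hv =>
      obtain ⟨s, hs, rfl⟩ := hv
      exact ⟨⟨s, hs⟩, rfl⟩
    | zero => rw [map_zero]; exact Submodule.zero_mem _
    | add v w _ _ hv hw => rw [map_add]; exact Submodule.add_mem _ hv hw
    | smul r v _ hv =>
      rw [hbsm]
      exact Submodule.smul_mem _ _ hv
  have hrange : ∀ c ∈ genSub x y n q G, b c ∈ LinearMap.range lam := by
    intro c hc
    obtain ⟨u, hu, v, hv, rfl⟩ := Submodule.mem_sup.mp hc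
    have hu0 : b u = 0 := by
      refine Submodule.smul_induction_on hu (fun r hr c _ => ?_) (fun a b' ha hb' => ?_)
      · obtain ⟨c', rfl⟩ := Ideal.mem_span_singleton'.mp hr
        rw [hbsm, map_mul, epsHom_yElt hC, mul_zero, zero_mul]
      · rw [map_add, ha, hb', add_zero]
    rw [map_add, hu0, zero_add]
    exact hspanrange v hv
  have hsurj : Function.Surjective lam := by
    intro a
    obtain ⟨c, rfl⟩ := hbs a
    exact hrange c (by rw [htop]; exact Submodule.mem_top)
  have hbij : Function.Bijective lam := Module.Invertible.bijective_of_surjective hsurj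
  obtain ⟨s, hs⟩ := hsurj 1
  have hspan : ∀ t : secq x n q G, t = lam t • s := by
    intro t
    apply hbij.1
    rw [map_smul, hs, smul_eq_mul, mul_one]
  refine ⟨(s : G.N₀ × G.N₁), s.2, fun t ht => ⟨lam ⟨t, ht⟩, ?_⟩, ?_⟩
  · exact congrArg Subtype.val (hspan ⟨t, ht⟩)
  · -- `s.2` generates modulo `y`
    intro c
    have hc : c ∈ genSub x y n q G := by rw [htop]; exact Submodule.mem_top
    obtain ⟨u, hu, v, hv, rfl⟩ := Submodule.mem_sup.mp hc
    have hle : Submodule.span (A ⊗[k] B₁) (Prod.snd '' (secq x n q G : Set (G.N₀ × G.N₁))) ≤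
        Submodule.span (A ⊗[k] B₁) {(s : G.N₀ × G.N₁).2} := by
      rw [Submodule.span_le]
      rintro _ ⟨t, ht, rfl⟩
      have h2 := congrArg (fun z : G.N₀ × G.N₁ => z.2) (congrArg Subtype.val (hspan ⟨t, ht⟩))
      simp only [Submodule.coe_smul, Prod.smul_snd] at h2
      rw [SetLike.mem_coe, h2, ← algebraMap_smul (A ⊗[k] B₁) (lam ⟨t, ht⟩)]
      exact Submodule.smul_mem _ _ (Submodule.subset_span rfl)
    obtain ⟨r, rfl⟩ := Submodule.mem_span_singleton.mp (hle hv)
    refine ⟨r, ?_⟩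
    rw [add_sub_cancel_right]
    exact hu

/-- `P2`'s second half is `genSub = ⊤`. -/
theorem exists_isGen_iff (hC : IsCurveChart k B₀ B₁ B₀₁ x y e) {n : ℕ} {m : ℕ}
    {q : Fin m → (B₀ →ₐ[k] k)} {G : CurveGD k B₀ B₁ B₀₁ A} (hrig : G.Rigidifiable e)
    [Module.Invertible A (secq x n q G)] :
    (∃ s, IsGen x y n q G s) ↔ genSub x y n q G = ⊤ :=
  ⟨fun ⟨_, hs⟩ => genSub_eq_top_of_isGen hs, exists_isGen_of_genSub_eq_top hC hrig⟩

end One

section BC

variable {A A' : Type u} [CommRing A] [Algebra k A] [CommRing A'] [Algebra k A'] [Algebra A A']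
  [IsScalarTower k A A']
  {ψ : A →ₐ[k] A'} {G : CurveGD k B₀ B₁ B₀₁ A} {G' : CurveGD k B₀ B₁ B₀₁ A'}
  {bc : GlueDatum.BaseChangeMaps (tensorMapLeft k ψ B₀) (tensorMapLeft k ψ B₁)
      (tensorMapLeft k ψ B₀₁) G G'}

/-- Base-changed sections of `G(nE₀ - Σq)` are sections of `G'(nE₀ - Σq)`. -/
theorem bc_mem_secq (bc : GlueDatum.BaseChangeMaps (tensorMapLeft k ψ B₀)
    (tensorMapLeft k ψ B₁) (tensorMapLeft k ψ B₀₁) G G') (x : B₀) (n : ℕ) {m : ℕ}
    (q : Fin m → (B₀ →ₐ[k] k)) {s : G.N₀ × G.N₁} (hs : s ∈ secq x n q G) :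
    ((bc.b₀ s.1, bc.b₁ s.2) : G'.N₀ × G'.N₁) ∈ secq x n q G' :=
  ⟨H791.BCEquivs.bc_mem_sec ψ bc x n hs.1, H791.BCEquivs.bc_mem_vanq ψ bc q hs.2⟩

/-- **Base change of `H⁰(G(nE₀ - Σq))`.** Under `P1` for `G`, every section of
`G'(nE₀ - Σq)` is an `A'`-linear combination of base-changed sections. -/
theorem mem_span_of_mem_secq (E : H791.BCEquivs ψ bc) (hC : IsCurveChart k B₀ B₁ B₀₁ x y e)
    {n : ℕ} {m : ℕ} {q : Fin m → (B₀ →ₐ[k] k)} (h1 : P1 x n q G) {t' : G'.N₀ × G'.N₁}
    (ht' : t' ∈ secq x n q G') :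
    t' ∈ Submodule.span A'
      {t : G'.N₀ × G'.N₁ | ∃ s ∈ secq x n q G, t = (bc.b₀ s.1, bc.b₁ s.2)} := by
  obtain ⟨τ, hτ⟩ := E.mem_range_of_mem_sec hC n h1.1 ht'.1
  have h2 : E.E₀.symm t'.1 ∈
      LinearMap.range (((vanq q G).restrictScalars A).subtype.baseChange A') :=
    E.mem_range_of_mem_vanq q ht'.2
  have hfst : (LinearMap.fst A G.N₀ G.N₁).baseChange A' (E.prod.symm t') = E.E₀.symm t'.1 := by
    apply E.E₀.injective
    rw [← E.prod_fst, LinearEquiv.apply_symm_apply, LinearEquiv.apply_symm_apply]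
  have hkill : ∀ w : A' ⊗[A] ↥((vanq q G).restrictScalars A),
      (((vanq q G).mkQ.restrictScalars A).baseChange A')
        ((((vanq q G).restrictScalars A).subtype).baseChange A' w) = 0 := by
    intro w
    induction w using TensorProduct.induction_on with
    | zero => simp
    | add w₁ w₂ h₁ h₂ => rw [map_add, map_add, h₁, h₂, add_zero]
    | tmul a v =>
      rw [LinearMap.baseChange_tmul, LinearMap.baseChange_tmul]
      have hv : ((vanq q G).mkQ.restrictScalars A) (((vanq q G).restrictScalars A).subtype v)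
          = 0 := (Submodule.Quotient.mk_eq_zero _).mpr v.2
      rw [hv, TensorProduct.tmul_zero]
  have hev : (evq x n q G).baseChange A' τ = 0 := by
    have hcomp : (evq x n q G).baseChange A' =
        (((vanq q G).mkQ.restrictScalars A).baseChange A') ∘ₗ
          ((LinearMap.fst A G.N₀ G.N₁).baseChange A') ∘ₗ
            ((sec x n G).subtype.baseChange A') := by
      rw [← LinearMap.baseChange_comp, ← LinearMap.baseChange_comp]
      rfl
    rw [hcomp, LinearMap.comp_apply, LinearMap.comp_apply, hτ, hfst]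
    obtain ⟨w, hw⟩ := h2
    rw [← hw]
    exact hkill w
  have hex := lTensor_exact A' (exact_secqIncl_evq x n q G) (evq_surjective h1)
  have hev' : (evq x n q G).lTensor A' τ = 0 := by
    rw [← hev]
    exact (congrFun (LinearMap.baseChange_eq_ltensor (A := A') (evq x n q G)) τ).symm
  obtain ⟨τL, hτL⟩ := (hex τ).mp hev'
  have ht : t' = E.prod ((sec x n G).subtype.baseChange A'
      ((secqIncl x n q G).baseChange A' τL)) := by
    have : (secqIncl x n q G).baseChange A' τL = τ := by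
      rw [← hτL]
      exact congrFun (LinearMap.baseChange_eq_ltensor (A := A') (secqIncl x n q G)) τL
    rw [this, hτ, LinearEquiv.apply_symm_apply]
  have hmem : ∀ w : A' ⊗[A] ↥(secq x n q G),
      E.prod ((sec x n G).subtype.baseChange A' ((secqIncl x n q G).baseChange A' w)) ∈
        Submodule.span A'
          {t : G'.N₀ × G'.N₁ | ∃ s ∈ secq x n q G, t = (bc.b₀ s.1, bc.b₁ s.2)} := by
    intro w
    induction w using TensorProduct.induction_on with
    | zero => simp
    | add w₁ w₂ h₁ h₂ =>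
      rw [map_add, map_add, map_add]
      exact Submodule.add_mem _ h₁ h₂
    | tmul a l =>
      rw [LinearMap.baseChange_tmul, LinearMap.baseChange_tmul, E.prod_tmul]
      have hsm : ((a • bc.b₀ ((sec x n G).subtype (secqIncl x n q G l)).1,
          a • bc.b₁ ((sec x n G).subtype (secqIncl x n q G l)).2) : G'.N₀ × G'.N₁) =
          a • ((bc.b₀ (l : G.N₀ × G.N₁).1, bc.b₁ (l : G.N₀ × G.N₁).2) : G'.N₀ × G'.N₁) := rfl
      rw [hsm]
      exact Submodule.smul_mem _ a (Submodule.subset_span ⟨l, l.2, rfl⟩)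
  rw [ht]
  exact hmem τL

omit [Algebra A A'] [IsScalarTower k A A'] in
/-- `tensorMapLeft` fixes `1 ⊗ y`. -/
theorem tensorMapLeft_yElt (ψ : A →ₐ[k] A') (y : B₁) :
    tensorMapLeft k ψ B₁ (yElt k A y) = yElt k A' y := by
  simp [tensorMapLeft, yElt]

/-- Base change maps `genSub G` into `genSub G'`. -/
theorem bc_mem_genSub (bc : GlueDatum.BaseChangeMaps (tensorMapLeft k ψ B₀)
    (tensorMapLeft k ψ B₁) (tensorMapLeft k ψ B₀₁) G G') (x : B₀) (y : B₁) (n : ℕ) {m : ℕ}
    (q : Fin m → (B₀ →ₐ[k] k)) {w : G.N₁} (hw : w ∈ genSub x y n q G) :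
    bc.b₁ w ∈ genSub x y n q G' := by
  obtain ⟨u, hu, v, hv, rfl⟩ := Submodule.mem_sup.mp hw
  rw [map_add]
  refine Submodule.add_mem _ ?_ ?_
  · refine Submodule.smul_induction_on hu (fun r hr c _ => ?_) (fun a b ha hb => ?_)
    · obtain ⟨c', rfl⟩ := Ideal.mem_span_singleton'.mp hr
      rw [bc.b₁.map_smulₛₗ, map_mul, tensorMapLeft_yElt, mul_smul]
      exact Submodule.smul_mem _ _ (yElt_smul_mem_genSub x y n q G' _)
    · rw [map_add]
      exact Submodule.add_mem _ ha hb
  · clear hw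
    induction hv using Submodule.span_induction with
    | mem v hv =>
      obtain ⟨s, hs, rfl⟩ := hv
      exact snd_mem_genSub (s := (bc.b₀ s.1, bc.b₁ s.2)) (bc_mem_secq bc x n q hs)
    | zero => rw [map_zero]; exact Submodule.zero_mem _
    | add v w _ _ hv hw => rw [map_add]; exact Submodule.add_mem _ hv hw
    | smul r v _ hv =>
      rw [bc.b₁.map_smulₛₗ]
      exact Submodule.smul_mem _ _ hv

/-- **Base change of `genSub`.** Under `P1` for `G`, `genSub G'` is the `A'`-span of the image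
of `genSub G`. -/
theorem genSub_le_span (E : H791.BCEquivs ψ bc) (hC : IsCurveChart k B₀ B₁ B₀₁ x y e)
    {n : ℕ} {m : ℕ} {q : Fin m → (B₀ →ₐ[k] k)} (h1 : P1 x n q G) {c' : G'.N₁}
    (hc' : c' ∈ genSub x y n q G') :
    c' ∈ Submodule.span A' (bc.b₁ '' (genSub x y n q G : Set G.N₁)) := by
  set T : Submodule A' G'.N₁ := Submodule.span A' (bc.b₁ '' (genSub x y n q G : Set G.N₁))
    with hT
  have hb₁ : ∀ w ∈ genSub x y n q G, bc.b₁ w ∈ T := fun w hw =>
    Submodule.subset_span ⟨w, hw, rfl⟩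
  -- `T` is stable under `A' ⊗ B₁`
  have key1 : ∀ (r' : A' ⊗[k] B₁) (z : G'.N₁), z ∈ T → r' • z ∈ T := by
    intro r'
    induction r' using TensorProduct.induction_on with
    | zero => intro z _; rw [zero_smul]; exact T.zero_mem
    | add r₁ r₂ h₁ h₂ => intro z hz; rw [add_smul]; exact T.add_mem (h₁ z hz) (h₂ z hz)
    | tmul a β =>
      intro z hz
      induction hz using Submodule.span_induction with
      | mem z hz =>
        obtain ⟨w, hw, rfl⟩ := hz
        have h3 : (a ⊗ₜ[k] β : A' ⊗[k] B₁) =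
            a • tensorMapLeft k ψ B₁ ((1 : A) ⊗ₜ[k] β) := by
          simp [tensorMapLeft, TensorProduct.smul_tmul']
        rw [h3, smul_assoc, ← bc.b₁.map_smulₛₗ]
        exact T.smul_mem a (hb₁ _ (Submodule.smul_mem _ _ hw))
      | zero => rw [smul_zero]; exact T.zero_mem
      | add z w _ _ hz hw => rw [smul_add]; exact T.add_mem hz hw
      | smul c z _ hz =>
        rw [smul_comm]
        exact T.smul_mem c hz
  -- `y N₁' ⊆ T`
  have key2 : ∀ n' : G'.N₁, yElt k A' y • n' ∈ T := by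
    intro n'
    obtain ⟨t, rfl⟩ := E.E₁.surjective n'
    induction t using TensorProduct.induction_on with
    | zero => rw [map_zero, smul_zero]; exact T.zero_mem
    | add t u ht hu => rw [map_add, smul_add]; exact T.add_mem ht hu
    | tmul a c =>
      rw [E.E₁_tmul, smul_comm, ← tensorMapLeft_yElt ψ y, ← bc.b₁.map_smulₛₗ]
      exact T.smul_mem a (hb₁ _ (yElt_smul_mem_genSub x y n q G c))
  -- `snd (H⁰(G'(nE₀ - Σq))) ⊆ T`
  have key3 : ∀ t' ∈ secq x n q G', t'.2 ∈ T := by
    intro t' ht'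
    have h := mem_span_of_mem_secq E hC h1 ht'
    clear ht'
    induction h using Submodule.span_induction with
    | mem t ht =>
      obtain ⟨s, hs, rfl⟩ := ht
      exact hb₁ _ (snd_mem_genSub hs)
    | zero => exact T.zero_mem
    | add t u _ _ ht hu => exact T.add_mem ht hu
    | smul a t _ ht => exact T.smul_mem a ht
  obtain ⟨u, hu, v, hv, rfl⟩ := Submodule.mem_sup.mp hc'
  refine T.add_mem ?_ ?_
  · refine Submodule.smul_induction_on hu (fun r hr c _ => ?_) (fun a b ha hb => ?_)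
    · obtain ⟨c', rfl⟩ := Ideal.mem_span_singleton'.mp hr
      rw [mul_smul]
      exact key1 _ _ (key2 c)
    · exact T.add_mem ha hb
  · clear hc'
    induction hv using Submodule.span_induction with
    | mem v hv =>
      obtain ⟨t', ht', rfl⟩ := hv
      exact key3 t' ht'
    | zero => exact T.zero_mem
    | add v w _ _ hv hw => exact T.add_mem hv hw
    | smul r v _ hv => exact key1 r v hv

theorem genSub_eq_top_iff_span (E : H791.BCEquivs ψ bc) (hC : IsCurveChart k B₀ B₁ B₀₁ x y e)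
    {n : ℕ} {m : ℕ} {q : Fin m → (B₀ →ₐ[k] k)} (h1 : P1 x n q G) :
    genSub x y n q G' = ⊤ ↔
      Submodule.span A' (bc.b₁ '' (genSub x y n q G : Set G.N₁)) = ⊤ := by
  constructor
  · intro h
    rw [Submodule.eq_top_iff']
    intro c'
    exact genSub_le_span E hC h1 (by rw [h]; exact Submodule.mem_top)
  · intro h
    rw [Submodule.eq_top_iff']
    intro c'
    have hc' : c' ∈ Submodule.span A' (bc.b₁ '' (genSub x y n q G : Set G.N₁)) := by
      rw [h]; exact Submodule.mem_top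
    induction hc' using Submodule.span_induction with
    | mem z hz =>
      obtain ⟨w, hw, rfl⟩ := hz
      exact bc_mem_genSub bc x y n q hw
    | zero => exact Submodule.zero_mem _
    | add z w _ _ hz hw => exact Submodule.add_mem _ hz hw
    | smul a z _ hz =>
      rw [← algebraMap_smul (A' ⊗[k] B₁) a z]
      exact Submodule.smul_mem _ _ hz

/-- The `A'`-span of the image of an `A ⊗ B₁`-submodule `W` of `N₁` is everything iff
`A' ⊗ (N₁ ⧸ W) = 0`. -/
theorem span_image_eq_top_iff (E : H791.BCEquivs ψ bc) (W : Submodule (A ⊗[k] B₁) G.N₁) :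
    Submodule.span A' (bc.b₁ '' (W : Set G.N₁)) = ⊤ ↔
      Subsingleton (A' ⊗[A] (G.N₁ ⧸ W.restrictScalars A)) := by
  set WA : Submodule A G.N₁ := W.restrictScalars A with hWA
  have hker := H791.ker_mkQ_baseChange_eq (A' := A') WA
  have h1 : ∀ w : A' ⊗[A] ↥WA, E.E₁ (WA.subtype.baseChange A' w) ∈
      Submodule.span A' (bc.b₁ '' (W : Set G.N₁)) := by
    intro w
    induction w using TensorProduct.induction_on with
    | zero => simp
    | add w₁ w₂ h₁ h₂ => rw [map_add, map_add]; exact Submodule.add_mem _ h₁ h₂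
    | tmul a v =>
      rw [LinearMap.baseChange_tmul, E.E₁_tmul]
      exact Submodule.smul_mem _ a (Submodule.subset_span ⟨v, v.2, rfl⟩)
  have h2 : ∀ z ∈ Submodule.span A' (bc.b₁ '' (W : Set G.N₁)),
      E.E₁.symm z ∈ LinearMap.range (WA.subtype.baseChange A') := by
    intro z hz
    induction hz using Submodule.span_induction with
    | mem z hz =>
      obtain ⟨w, hw, rfl⟩ := hz
      refine ⟨(1 : A') ⊗ₜ[A] (⟨w, hw⟩ : WA), ?_⟩
      apply E.E₁.injective
      rw [LinearEquiv.apply_symm_apply, LinearMap.baseChange_tmul, E.E₁_tmul, one_smul]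
      rfl
    | zero => rw [map_zero]; exact Submodule.zero_mem _
    | add z w _ _ hz hw => rw [map_add]; exact Submodule.add_mem _ hz hw
    | smul a z _ hz => rw [map_smul]; exact Submodule.smul_mem _ a hz
  constructor
  · intro htop
    have hzero : ∀ c : A' ⊗[A] (G.N₁ ⧸ WA), c = 0 := by
      intro c
      obtain ⟨t, rfl⟩ := LinearMap.lTensor_surjective A' (Submodule.mkQ_surjective WA) c
      have ht : t ∈ LinearMap.range (WA.subtype.baseChange A') := by
        have := h2 (E.E₁ t) (by rw [htop]; exact Submodule.mem_top)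
        rwa [LinearEquiv.symm_apply_apply] at this
      rw [← hker, LinearMap.mem_ker] at ht
      rw [← ht]
      exact (congrFun (LinearMap.baseChange_eq_ltensor (A := A') WA.mkQ) t).symm
    exact ⟨fun a b => by rw [hzero a, hzero b]⟩
  · intro hsub
    rw [Submodule.eq_top_iff']
    intro c'
    have hk : E.E₁.symm c' ∈ LinearMap.ker (WA.mkQ.baseChange A') := by
      rw [LinearMap.mem_ker]
      exact Subsingleton.elim _ _
    rw [hker] at hk
    obtain ⟨w, hw⟩ := hk
    have := h1 w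
    rwa [hw, LinearEquiv.apply_symm_apply] at this

end BC

section Finite

variable {A : Type u} [CommRing A] [Algebra k A]

open Polynomial in
/-- For a curve chart, `A ⊗ B₁` is finite over `A[X]` via `X ↦ 1 ⊗ y`. -/
theorem finite_aeval_yElt (hC : IsCurveChart k B₀ B₁ B₀₁ x y e) (A : Type u) [CommRing A]
    [Algebra k A] : (aeval (yElt k A y) : A[X] →ₐ[A] A ⊗[k] B₁).Finite := by
  haveI := hC.isDomain₁
  obtain ⟨n, φ, hφ⟩ := H250.exists_equivariant_equiv (H250.aeval_y_injective hC) hC.finite₁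
  obtain ⟨Φ, hΦ⟩ := H250.exists_equivariant_equiv_tensor φ hφ A
  exact H791.finite_aeval_of_equivariant _ Φ hΦ

/-- `N₁ ⧸ genSub` is a finite `A`-module. -/
theorem finite_quotient_genSub (hC : IsCurveChart k B₀ B₁ B₀₁ x y e) (n : ℕ) {m : ℕ}
    (q : Fin m → (B₀ →ₐ[k] k)) (G : CurveGD k B₀ B₁ B₀₁ A) :
    Module.Finite A (G.N₁ ⧸ (genSub x y n q G).restrictScalars A) := by
  haveI := G.invertible₁
  haveI : Module.Finite A (G.N₁ ⧸ genSub x y n q G) := by
    refine H791.finite_of_monic_aeval_smul_eq_zero (yElt k A y) (finite_aeval_yElt hC A)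
      Polynomial.X Polynomial.monic_X (fun z => ?_)
    obtain ⟨c, rfl⟩ := Submodule.Quotient.mk_surjective _ z
    rw [Polynomial.aeval_X, ← Submodule.Quotient.mk_smul, Submodule.Quotient.mk_eq_zero]
    exact yElt_smul_mem_genSub x y n q G c
  exact Module.Finite.equiv (Submodule.Quotient.restrictScalarsEquiv A (genSub x y n q G)).symm

end Finite


section Main

variable [IsAlgClosed k] {A : Type u} [CommRing A] [Algebra k A]

omit [IsAlgClosed k] in
/-- `P1` is stable under base change. -/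
theorem p1_of_isBC (hC : IsCurveChart k B₀ B₁ B₀₁ x y e) {n : ℕ} {m : ℕ}
    {q : Fin m → (B₀ →ₐ[k] k)} {A' : Type u} [CommRing A'] [Algebra k A'] {ψ : A →ₐ[k] A'}
    {G : CurveGD k B₀ B₁ B₀₁ A} {G' : CurveGD k B₀ B₁ B₀₁ A'} (h : CurveGD.IsBC ψ G G')
    (h1 : P1 x n q G) : P1 x n q G' := by
  letI : Algebra A A' := ψ.toRingHom.toAlgebra
  haveI : IsScalarTower k A A' := IsScalarTower.of_algebraMap_eq' (by
    ext c
    exact (ψ.commutes c).symm)
  rw [H791.p1_iff_annihilator_map hC n q ψ (fun _ => rfl) h h1.1]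
  have htop : H791.evRange x n q G = ⊤ := (H791.p1_iff.mp h1).2
  haveI : Subsingleton (G.N₀ ⧸ H791.evRange x n q G) :=
    Submodule.Quotient.subsingleton_iff.mpr htop
  rw [Module.annihilator_eq_top_iff.mpr inferInstance, Ideal.map_top]

/-- **STAGE 2** (exact skeleton statement): given `P1`, rigidifiability and degree `0`, the
locus where the rank one module `H⁰(G(nE₀ - Σq))` generates `N₁ / y N₁`; there it is free on
a generator `s`.  `J` is the annihilator of `N₁ / (y N₁ + R₁ · snd H⁰(G(nE₀ - Σq)))`. -/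
theorem stage2_locus (hC : IsCurveChart k B₀ B₁ B₀₁ x y e) (i : ChartIndex k B₀)
    (hnum : i.Numeric B₀₁ y) (G : CurveGD k B₀ B₁ B₀₁ A) (hrig : G.Rigidifiable e)
    (hdeg : G.Deg0) (h1 : P1 x i.n i.q G) :
    ∃ J : Ideal A, ∀ (A' : Type u) [CommRing A'] [Algebra k A'] (ψ : A →ₐ[k] A')
      (G' : CurveGD k B₀ B₁ B₀₁ A'), CurveGD.IsBC ψ G G' →
        (P2 x y i.n i.q G' ↔ J.map ψ.toRingHom = ⊤) := by
  refine ⟨Module.annihilator A (G.N₁ ⧸ (genSub x y i.n i.q G).restrictScalars A), ?_⟩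
  intro A' _ _ ψ G' h
  have h1' : P1 x i.n i.q G' := p1_of_isBC hC h h1
  have hrig' : G'.Rigidifiable e := H265.rigidifiable_of_isBC h hrig
  have hdeg' : G'.Deg0 := H265.deg0_of_isBC h hdeg
  haveI := secq_invertible hC i hnum G' hdeg' h1'
  haveI := finite_quotient_genSub (y := y) hC i.n i.q G
  letI : Algebra A A' := ψ.toRingHom.toAlgebra
  haveI : IsScalarTower k A A' := IsScalarTower.of_algebraMap_eq' (by
    ext c
    exact (ψ.commutes c).symm)
  obtain ⟨bc⟩ := h
  obtain ⟨E⟩ := H791.exists_bcEquivs ψ (fun _ => rfl) bc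
  rw [P2, and_iff_right h1', exists_isGen_iff hC hrig', genSub_eq_top_iff_span E hC h1,
    span_image_eq_top_iff E, H791.subsingleton_tensorProduct_iff]
  exact Iff.rfl

/-- **Leaf ST2** in the form of `H11/ACLeaves.lean`. -/
theorem leaf_stage2 (k : Type u) [Field k] [IsAlgClosed k] (B₀ B₁ B₀₁ : Type u) [CommRing B₀]
    [CommRing B₁] [CommRing B₀₁] [Algebra k B₀] [Algebra k B₁] [Algebra k B₀₁]
    [Algebra B₀ B₀₁] [Algebra B₁ B₀₁] [IsScalarTower k B₀ B₀₁] [IsScalarTower k B₁ B₀₁] :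
    H11.Leaf.Stage2 k B₀ B₁ B₀₁ :=
  fun _ _ _ hC i hnum _ _ _ G hrig hdeg h1 => stage2_locus hC i hnum G hrig hdeg h1

end Main

end Fermat.Agent.S25.H551
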