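import Mathlib
import Fermat.Agent.S25.DefsAlg
import Fermat.Agent.S25.H551.AlgDefSemi

/-!
# S25 / block ALGDEF, abstract lifting of gluing data (helper551)

Given a morphism of cospans of rings `(R₀ → R₀₁ ← R₁) → (R₀' → R₀₁' ← R₁')` whose three legs
are surjective with nil kernel, every gluing datum over the target cospan is a base change of
a gluing datum over the source cospan.
-/

set_option autoImplicit false
set_option linter.style.haveILetI false

open TensorProduct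

universe u

namespace Fermat.Agent.S25.H551

open Fermat.Agent.S25

section Abstract

variable {A R₀ R₁ R₀₁ : Type u} [CommRing A] [CommRing R₀] [CommRing R₁]
    [CommRing R₀₁] [Algebra A R₀] [Algebra A R₁] [Algebra A R₀₁] [Algebra R₀ R₀₁]
    [Algebra R₁ R₀₁] [IsScalarTower A R₀ R₀₁] [IsScalarTower A R₁ R₀₁]
    {A' R₀' R₁' R₀₁' : Type u} [CommRing A'] [CommRing R₀'] [CommRing R₁']
    [CommRing R₀₁'] [Algebra A' R₀'] [Algebra A' R₁'] [Algebra A' R₀₁'] [Algebra R₀' R₀₁']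
    [Algebra R₁' R₀₁'] [IsScalarTower A' R₀' R₀₁'] [IsScalarTower A' R₁' R₀₁']

/-- Gluing data lift along a morphism of cospans with surjective legs with nil kernels. -/
theorem exists_glueDatum_lift (ρ₀ : R₀ →+* R₀') (ρ₁ : R₁ →+* R₁') (ρ₀₁ : R₀₁ →+* R₀₁')
    (h₀ : ∀ r, ρ₀₁ (algebraMap R₀ R₀₁ r) = algebraMap R₀' R₀₁' (ρ₀ r))
    (h₁ : ∀ r, ρ₀₁ (algebraMap R₁ R₀₁ r) = algebraMap R₁' R₀₁' (ρ₁ r))
    (hs₀ : Function.Surjective ρ₀) (hn₀ : ∀ x ∈ RingHom.ker ρ₀, IsNilpotent x)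
    (hs₁ : Function.Surjective ρ₁) (hn₁ : ∀ x ∈ RingHom.ker ρ₁, IsNilpotent x)
    (hs₀₁ : Function.Surjective ρ₀₁) (hn₀₁ : ∀ x ∈ RingHom.ker ρ₀₁, IsNilpotent x)
    (G' : GlueDatum A' R₀' R₁' R₀₁') :
    ∃ G : GlueDatum A R₀ R₁ R₀₁, GlueDatum.IsBC ρ₀ ρ₁ ρ₀₁ G G' := by
  haveI := G'.invertible₀
  haveI := G'.invertible₁
  obtain ⟨P₀, iP₀a, iP₀m, hP₀, b₀, hb₀⟩ := exists_invertible_semilinear ρ₀ hs₀ hn₀ G'.N₀
  obtain ⟨P₁, iP₁a, iP₁m, hP₁, b₁, hb₁⟩ := exists_invertible_semilinear ρ₁ hs₁ hn₁ G'.N₁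
  obtain ⟨c₀, hc₀, hc₀'⟩ := exists_side ρ₀ ρ₀₁ h₀ b₀ hb₀ G'.r₀ G'.isBaseChange₀
  obtain ⟨c₁, hc₁, hc₁'⟩ := exists_side ρ₁ ρ₀₁ h₁ b₁ hb₁ G'.r₁ G'.isBaseChange₁
  obtain ⟨ψ, hψ⟩ := exists_linearEquiv_of_semilinear ρ₀₁ hs₀₁ hn₀₁ hc₁ hc₀
  -- module structures on the lift
  letI modA₀ : Module A P₀ := Module.compHom P₀ (algebraMap A R₀)
  haveI towA₀ : IsScalarTower A R₀ P₀ := ⟨fun a r n => by
    rw [Algebra.smul_def]
    change (algebraMap A R₀ a * r) • n = algebraMap A R₀ a • (r • n)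
    rw [mul_smul]⟩
  letI modA₁ : Module A P₁ := Module.compHom P₁ (algebraMap A R₁)
  haveI towA₁ : IsScalarTower A R₁ P₁ := ⟨fun a r n => by
    rw [Algebra.smul_def]
    change (algebraMap A R₁ a * r) • n = algebraMap A R₁ a • (r • n)
    rw [mul_smul]⟩
  -- the second restriction map
  let r₁ : P₁ →ₗ[R₁] (R₀₁ ⊗[R₀] P₀) :=
    (ψ.restrictScalars R₁).toLinearMap ∘ₗ (TensorProduct.mk R₁ R₀₁ P₁ 1)
  have hr₁ : IsBaseChange R₀₁ r₁ := IsBaseChange.of_equiv ψ (fun x => rfl)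
  refine ⟨{ N₀ := P₀
            N₁ := P₁
            N₀₁ := R₀₁ ⊗[R₀] P₀
            addCommGroup₀ := iP₀a
            addCommGroup₁ := iP₁a
            addCommGroup₀₁ := inferInstance
            module₀ := iP₀m
            module₁ := iP₁m
            module₀₁ := inferInstance
            moduleL := inferInstance
            moduleR := inferInstance
            towerL := inferInstance
            towerR := inferInstance
            baseModule₀ := modA₀
            baseModule₁ := modA₁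
            baseModule₀₁ := inferInstance
            baseTower₀ := towA₀
            baseTower₁ := towA₁
            baseTower₀₁ := inferInstance
            r₀ := TensorProduct.mk R₀ R₀₁ P₀ 1
            r₁ := r₁
            isBaseChange₀ := TensorProduct.isBaseChange R₀ P₀ R₀₁
            isBaseChange₁ := hr₁
            invertible₀ := hP₀
            invertible₁ := hP₁ },
    ⟨{ b₀ := b₀
       b₁ := b₁
       b₀₁ := c₀
       comm₀ := fun s => hc₀' s
       comm₁ := fun s => (hψ _).trans (hc₁' s)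
       isBaseChange₀ := hb₀
       isBaseChange₁ := hb₁
       isBaseChange₀₁ := hc₀ }⟩⟩

end Abstract

end Fermat.Agent.S25.H551
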