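import Mathlib
import Fermat.Agent.S25.DefsAlg
import Fermat.Agent.S25.H551.AlgDefAbstract

/-!
# S25 / block ALGDEF: `Stmt.AlgDef` (helper551)

Gluing data on a curve chart lift along square-zero extensions `A → A ⧸ I`.
The hypothesis `IsCurveChart` is not needed.
-/

set_option autoImplicit false
set_option linter.style.haveILetI false

open TensorProduct

universe u

namespace Fermat.Agent.S25.H551

open Fermat.Agent.S25

section TensorMapLeft

variable (k : Type u) [Field k] {A A' : Type u} [CommRing A] [Algebra k A] [CommRing A']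
  [Algebra k A'] (φ : A →ₐ[k] A')

theorem tensorMapLeft_tmul (B : Type u) [CommRing B] [Algebra k B] (a : A) (b : B) :
    tensorMapLeft k φ B (a ⊗ₜ[k] b) = φ a ⊗ₜ[k] b := rfl

theorem tensorMapLeft_surjective (hφ : Function.Surjective φ) (B : Type u) [CommRing B]
    [Algebra k B] : Function.Surjective (tensorMapLeft k φ B) :=
  Algebra.TensorProduct.map_surjective φ (AlgHom.id k B) hφ Function.surjective_id

theorem tensorMapLeft_ker (hφ : Function.Surjective φ) (B : Type u) [CommRing B]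
    [Algebra k B] :
    RingHom.ker (tensorMapLeft k φ B) =
      Ideal.map (Algebra.TensorProduct.includeLeft : A →ₐ[k] A ⊗[k] B) (RingHom.ker φ) :=
  Algebra.TensorProduct.rTensor_ker φ hφ

theorem tensorMapLeft_ker_nil (hφ : Function.Surjective φ) {n : ℕ}
    (hn : (RingHom.ker (φ : A →+* A')) ^ n = ⊥) (B : Type u) [CommRing B] [Algebra k B] :
    ∀ x ∈ RingHom.ker (tensorMapLeft k φ B), IsNilpotent x := by
  intro x hx
  rw [tensorMapLeft_ker k φ hφ B] at hx
  refine ⟨n, ?_⟩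
  have h1 : x ^ n ∈ (Ideal.map (Algebra.TensorProduct.includeLeft : A →ₐ[k] A ⊗[k] B)
      (RingHom.ker φ)) ^ n := Ideal.pow_mem_pow hx n
  have h2 : (Ideal.map (Algebra.TensorProduct.includeLeft : A →ₐ[k] A ⊗[k] B)
      (RingHom.ker φ)) ^ n = ⊥ := by
    rw [← Ideal.map_pow]
    have : (RingHom.ker φ) ^ n = (⊥ : Ideal A) := hn
    rw [this, Ideal.map_bot]
  rw [h2] at h1
  simpa using h1

theorem tensorMapLeft_algebraMap (B B' : Type u) [CommRing B] [CommRing B'] [Algebra k B]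
    [Algebra k B'] [Algebra B B'] [IsScalarTower k B B'] (r : A ⊗[k] B) :
    tensorMapLeft k φ B' (algebraMap (A ⊗[k] B) (A ⊗[k] B') r) =
      algebraMap (A' ⊗[k] B) (A' ⊗[k] B') (tensorMapLeft k φ B r) := by
  induction r using TensorProduct.induction_on with
  | zero => simp
  | tmul a b => rfl
  | add x y hx hy => rw [map_add, map_add, map_add, map_add, hx, hy]

end TensorMapLeft

/-- **ALG-DEF.** Gluing data lift along square-zero extensions (no hypothesis on the chart is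
needed). -/
theorem algDef (k : Type u) [Field k] (B₀ B₁ B₀₁ : Type u) [CommRing B₀] [CommRing B₁]
    [CommRing B₀₁] [Algebra k B₀] [Algebra k B₁] [Algebra k B₀₁] [Algebra B₀ B₀₁]
    [Algebra B₁ B₀₁] [IsScalarTower k B₀ B₀₁] [IsScalarTower k B₁ B₀₁] :
    Stmt.AlgDef k B₀ B₁ B₀₁ := by
  intro x y e _ A _ _ I hI G₀
  have hφ : Function.Surjective (Ideal.Quotient.mkₐ k I) := Ideal.Quotient.mkₐ_surjective k I
  have hker : (RingHom.ker ((Ideal.Quotient.mkₐ k I : A →ₐ[k] A ⧸ I) : A →+* A ⧸ I)) ^ 2 = ⊥ := by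
    have : RingHom.ker ((Ideal.Quotient.mkₐ k I : A →ₐ[k] A ⧸ I) : A →+* A ⧸ I) = I :=
      Ideal.Quotient.mkₐ_ker k I
    rw [this, hI]
  exact exists_glueDatum_lift
    (tensorMapLeft k (Ideal.Quotient.mkₐ k I) B₀)
    (tensorMapLeft k (Ideal.Quotient.mkₐ k I) B₁)
    (tensorMapLeft k (Ideal.Quotient.mkₐ k I) B₀₁)
    (tensorMapLeft_algebraMap k _ B₀ B₀₁)
    (tensorMapLeft_algebraMap k _ B₁ B₀₁)
    (tensorMapLeft_surjective k _ hφ B₀) (tensorMapLeft_ker_nil k _ hφ hker B₀)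
    (tensorMapLeft_surjective k _ hφ B₁) (tensorMapLeft_ker_nil k _ hφ hker B₁)
    (tensorMapLeft_surjective k _ hφ B₀₁) (tensorMapLeft_ker_nil k _ hφ hker B₀₁)
    G₀

/-- Nilpotent version: gluing data lift along `A → A ⧸ I` for any nilpotent ideal `I`. -/
theorem exists_curveGD_lift_of_pow_eq_bot (k : Type u) [Field k] (B₀ B₁ B₀₁ : Type u)
    [CommRing B₀] [CommRing B₁]
    [CommRing B₀₁] [Algebra k B₀] [Algebra k B₁] [Algebra k B₀₁] [Algebra B₀ B₀₁]
    [Algebra B₁ B₀₁] [IsScalarTower k B₀ B₀₁] [IsScalarTower k B₁ B₀₁]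
    (A : Type u) [CommRing A] [Algebra k A] (I : Ideal A) {n : ℕ} (hI : I ^ n = ⊥)
    (G₀ : CurveGD k B₀ B₁ B₀₁ (A ⧸ I)) :
    ∃ G : CurveGD k B₀ B₁ B₀₁ A, CurveGD.IsBC (Ideal.Quotient.mkₐ k I) G G₀ := by
  have hφ : Function.Surjective (Ideal.Quotient.mkₐ k I) := Ideal.Quotient.mkₐ_surjective k I
  have hker : (RingHom.ker ((Ideal.Quotient.mkₐ k I : A →ₐ[k] A ⧸ I) : A →+* A ⧸ I)) ^ n = ⊥ := by
    have : RingHom.ker ((Ideal.Quotient.mkₐ k I : A →ₐ[k] A ⧸ I) : A →+* A ⧸ I) = I :=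
      Ideal.Quotient.mkₐ_ker k I
    rw [this, hI]
  exact exists_glueDatum_lift
    (tensorMapLeft k (Ideal.Quotient.mkₐ k I) B₀)
    (tensorMapLeft k (Ideal.Quotient.mkₐ k I) B₁)
    (tensorMapLeft k (Ideal.Quotient.mkₐ k I) B₀₁)
    (tensorMapLeft_algebraMap k _ B₀ B₀₁)
    (tensorMapLeft_algebraMap k _ B₁ B₀₁)
    (tensorMapLeft_surjective k _ hφ B₀) (tensorMapLeft_ker_nil k _ hφ hker B₀)
    (tensorMapLeft_surjective k _ hφ B₁) (tensorMapLeft_ker_nil k _ hφ hker B₁)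
    (tensorMapLeft_surjective k _ hφ B₀₁) (tensorMapLeft_ker_nil k _ hφ hker B₀₁)
    G₀

end Fermat.Agent.S25.H551
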